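import Mathlib

set_option autoImplicit false

namespace Fermat.Agent.Kummer

open Finset

/-- The quotient `(y^p + z^p)/(y + z)`. -/
def phi (p : ℕ) (y z : ℤ) : ℤ := ∑ i ∈ range p, y ^ i * (-z) ^ (p - 1 - i)

theorem phi_mul {p : ℕ} (hodd : Odd p) (y z : ℤ) : (y + z) * phi p y z = y ^ p + z ^ p := by
  have := geom_sum₂_mul y (-z) p
  rw [hodd.neg_pow, sub_neg_eq_add, sub_neg_eq_add] at this
  rw [mul_comm, phi, this]

theorem exists_factor {p : ℕ} (hp : p.Prime) (hodd : Odd p) {x y z : ℤ}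
    (h : x ^ p + y ^ p + z ^ p = 0) (hyz : IsCoprime y z) (hx : ¬ (p : ℤ) ∣ x) :
    ∃ a α : ℤ, y + z = a ^ p ∧ phi p y z = α ^ p := by
  have hmul : (y + z) * phi p y z = (-x) ^ p := by
    rw [phi_mul hodd, hodd.neg_pow]
    linarith
  have hcop : IsCoprime (y + z) (phi p y z) := by
    apply isCoprime_of_prime_dvd
    · rintro ⟨h1, -⟩
      rw [h1, zero_mul] at hmul
      have : x = 0 := by
        have := pow_eq_zero_iff hp.ne_zero |>.1 hmul.symm
        simpa using this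
      exact hx (this ▸ dvd_zero _)
    · intro l hl h1 h2
      have h3 : l ∣ y - (-z) := by rwa [sub_neg_eq_add]
      have h4 := (dvd_geom_sum₂_iff_of_dvd_sub (n := p) h3).1 h2
      rcases hl.dvd_or_dvd h4 with h5 | h5
      · -- l = p
        have h6 : Associated l (p : ℤ) :=
          (hl.dvd_prime_iff_associated (Nat.prime_iff_prime_int.1 hp)).1 h5
        apply hx
        have : (p : ℤ) ∣ (-x) ^ p := by
          rw [← hmul]
          exact (h6.symm.dvd.trans h1).mul_right _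
        have := (Nat.prime_iff_prime_int.1 hp).dvd_of_dvd_pow this
        rwa [dvd_neg] at this
      · have h6 := hl.dvd_of_dvd_pow h5
        rw [dvd_neg] at h6
        have h7 : l ∣ y := by
          have : y = (y + z) - z := by ring
          rw [this]
          exact dvd_sub h1 h6
        exact hl.not_isUnit (hyz.isUnit_of_dvd' h7 h6)
  obtain ⟨⟨a, ha⟩, ⟨α, hα⟩⟩ := Int.eq_pow_of_mul_eq_pow_odd hcop hodd hmul
  exact ⟨a, α, ha, hα⟩

theorem phi_of_dvd {p : ℕ} {q y z : ℤ} (h : q ∣ y + z) :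
    q ∣ phi p y z - p * (-z) ^ (p - 1) := by
  have h3 : q ∣ y - (-z) := by rwa [sub_neg_eq_add]
  rw [← Ideal.mem_span_singleton, ← Ideal.Quotient.eq, phi, map_sum]
  have e : (Ideal.Quotient.mk (Ideal.span {q})) y = (Ideal.Quotient.mk (Ideal.span {q})) (-z) := by
    rw [Ideal.Quotient.eq, Ideal.mem_span_singleton]
    exact h3
  simp only [map_mul, map_pow, e, ← pow_add]
  rw [Finset.sum_congr rfl (g := fun _ => (Ideal.Quotient.mk (Ideal.span {q})) (-z) ^ (p - 1))]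
  · rw [Finset.sum_const, card_range, nsmul_eq_mul, map_natCast]
  · intro i hi
    rw [mem_range] at hi
    congr 1
    omega

theorem phi_zero_left {p : ℕ} (hp : 0 < p) {q x y : ℤ} (h : q ∣ x) :
    q ∣ phi p x y - (-y) ^ (p - 1) := by
  obtain ⟨n, rfl⟩ : ∃ n, p = n + 1 := ⟨p - 1, by omega⟩
  rw [phi, Finset.sum_range_succ']
  simp only [pow_zero, one_mul, Nat.add_sub_cancel, Nat.sub_zero, add_sub_cancel_right]
  refine Finset.dvd_sum fun i _ => ?_
  rw [pow_succ]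
  exact Dvd.dvd.mul_right (h.mul_left _) _

theorem sophie_aux {p q : ℕ} [Fact q.Prime] (hp : p.Prime) (hodd : Odd p)
    (hA : ∀ x y z : ZMod q, x ^ p + y ^ p + z ^ p = 0 → x = 0 ∨ y = 0 ∨ z = 0)
    (hB : ∀ x : ZMod q, x ^ p ≠ p) {x y z : ℤ} (h : x ^ p + y ^ p + z ^ p = 0)
    (hxy : IsCoprime x y) (hyz : IsCoprime y z) (hzx : IsCoprime z x)
    (hx : ¬ (p : ℤ) ∣ x) (hy : ¬ (p : ℤ) ∣ y) (hz : ¬ (p : ℤ) ∣ z) (hq : (q : ℤ) ∣ x) : False := by
  have hqp : Prime (q : ℤ) := Nat.prime_iff_prime_int.1 Fact.out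
  obtain ⟨a, α, ha, hα⟩ := exists_factor hp hodd h hyz hx
  obtain ⟨b, β, hb, hβ⟩ := exists_factor hp hodd (x := y) (y := z) (z := x) (by linarith) hzx hy
  obtain ⟨c, γ, hc, hγ⟩ := exists_factor hp hodd (x := z) (y := x) (z := y) (by linarith) hxy hz
  have hqy : ¬ (q : ℤ) ∣ y := fun h' => hqp.not_isUnit (hxy.isUnit_of_dvd' hq h')
  have hqz : ¬ (q : ℤ) ∣ z := fun h' => hqp.not_isUnit (hzx.isUnit_of_dvd' h' hq)
  have hx0 : (x : ZMod q) = 0 := (ZMod.intCast_zmod_eq_zero_iff_dvd _ _).2 hq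
  have hsum : (b : ZMod q) ^ p + (c : ZMod q) ^ p + (-(a : ZMod q)) ^ p = 0 := by
    rw [hodd.neg_pow]
    have : (b : ℤ) ^ p + c ^ p + -(a ^ p) = 2 * x := by rw [← hb, ← hc, ← ha]; ring
    have := congrArg (Int.cast : ℤ → ZMod q) this
    push_cast at this
    rw [this, hx0, mul_zero]
  have hqa : (q : ℤ) ∣ a := by
    rcases hA _ _ _ hsum with h1 | h1 | h1
    · exfalso
      rw [ZMod.intCast_zmod_eq_zero_iff_dvd] at h1
      apply hqz
      have : z = b ^ p - x := by rw [← hb]; ring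
      rw [this]
      exact dvd_sub (dvd_pow h1 hp.ne_zero) hq
    · exfalso
      rw [ZMod.intCast_zmod_eq_zero_iff_dvd] at h1
      apply hqy
      have : y = c ^ p - x := by rw [← hc]; ring
      rw [this]
      exact dvd_sub (dvd_pow h1 hp.ne_zero) hq
    · rw [neg_eq_zero, ZMod.intCast_zmod_eq_zero_iff_dvd] at h1
      exact h1
  have hyz' : (q : ℤ) ∣ y + z := by
    rw [ha]
    exact dvd_pow hqa hp.ne_zero
  have e1 : (α : ZMod q) ^ p = p * (-(z : ZMod q)) ^ (p - 1) := by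
    have := (ZMod.intCast_zmod_eq_zero_iff_dvd _ _).2 (phi_of_dvd (p := p) hyz')
    rw [hα] at this
    push_cast at this
    exact sub_eq_zero.1 this
  have e2 : (γ : ZMod q) ^ p = (-(y : ZMod q)) ^ (p - 1) := by
    have := (ZMod.intCast_zmod_eq_zero_iff_dvd _ _).2 (phi_zero_left (y := y) hp.pos hq)
    rw [hγ] at this
    push_cast at this
    exact sub_eq_zero.1 this
  have e3 : (y : ZMod q) = -z := by
    have := (ZMod.intCast_zmod_eq_zero_iff_dvd _ _).2 hyz'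
    push_cast at this
    exact eq_neg_of_add_eq_zero_left this
  have heven : Even (p - 1) := hodd.tsub_odd odd_one
  have hγ0 : (γ : ZMod q) ≠ 0 := by
    intro h0
    rw [h0, zero_pow hp.ne_zero] at e2
    have h1 : (-(y : ZMod q)) ^ (p - 1) = 0 := e2.symm
    have h2 := eq_zero_of_pow_eq_zero h1
    rw [neg_eq_zero, ZMod.intCast_zmod_eq_zero_iff_dvd] at h2
    exact hqy h2
  apply hB ((α : ZMod q) / γ)
  rw [div_pow, e1, e2, e3, neg_neg, heven.neg_pow]
  have hz0 : (z : ZMod q) ^ (p - 1) ≠ 0 := by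
    intro h1
    have h2 := eq_zero_of_pow_eq_zero h1
    rw [ZMod.intCast_zmod_eq_zero_iff_dvd] at h2
    exact hqz h2
  rw [mul_div_assoc, div_self hz0, mul_one]

theorem sophie {p q : ℕ} [Fact q.Prime] (hp : p.Prime) (hodd : Odd p)
    (hA : ∀ x y : ZMod q, x ^ p + y ^ p + 1 = 0 → x = 0 ∨ y = 0)
    (hB : ∀ x : ZMod q, x ^ p ≠ p) {x y z : ℤ} (h : x ^ p + y ^ p + z ^ p = 0)
    (hxy : IsCoprime x y) (hyz : IsCoprime y z) (hzx : IsCoprime z x) :
    (p : ℤ) ∣ x ∨ (p : ℤ) ∣ y ∨ (p : ℤ) ∣ z := by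
  have hA' : ∀ x y z : ZMod q, x ^ p + y ^ p + z ^ p = 0 → x = 0 ∨ y = 0 ∨ z = 0 := by
    intro x y z hxyz
    by_cases hz : z = 0
    · exact Or.inr (Or.inr hz)
    · have hzp : z ^ p ≠ 0 := pow_ne_zero _ hz
      have : (x / z) ^ p + (y / z) ^ p + 1 = 0 := by
        rw [div_pow, div_pow]
        field_simp
        rw [hxyz, mul_zero]
      rcases hA _ _ this with h1 | h1
      · left
        rcases div_eq_zero_iff.1 h1 with h2 | h2
        · exact h2
        · exact absurd h2 hz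
      · right; left
        rcases div_eq_zero_iff.1 h1 with h2 | h2
        · exact h2
        · exact absurd h2 hz
  by_contra hcon
  push Not at hcon
  obtain ⟨hx, hy, hz⟩ := hcon
  have hm : ((x : ℤ) : ZMod q) ^ p + ((y : ℤ) : ZMod q) ^ p + ((z : ℤ) : ZMod q) ^ p = 0 := by
    exact_mod_cast congrArg (Int.cast : ℤ → ZMod q) h
  rcases hA' _ _ _ hm with h1 | h1 | h1
  · rw [ZMod.intCast_zmod_eq_zero_iff_dvd] at h1
    exact sophie_aux hp hodd hA' hB h hxy hyz hzx hx hy hz h1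
  · rw [ZMod.intCast_zmod_eq_zero_iff_dvd] at h1
    exact sophie_aux hp hodd hA' hB (x := y) (y := z) (z := x) (by linarith) hyz hzx hxy hy hz hx h1
  · rw [ZMod.intCast_zmod_eq_zero_iff_dvd] at h1
    exact sophie_aux hp hodd hA' hB (x := z) (y := x) (z := y) (by linarith) hzx hxy hyz hz hx hy h1

theorem fact_prime_23 : Fact (Nat.Prime 23) := ⟨by norm_num⟩
theorem fact_prime_29 : Fact (Nat.Prime 29) := ⟨by norm_num⟩
theorem fact_prime_53 : Fact (Nat.Prime 53) := ⟨by norm_num⟩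
theorem fact_prime_11' : Fact (Nat.Prime 11) := ⟨by norm_num⟩
attribute [local instance] fact_prime_23 fact_prime_29 fact_prime_53 fact_prime_11'

theorem caseI_5 {x y z : ℤ} (h : x ^ 5 + y ^ 5 + z ^ 5 = 0)
    (hxy : IsCoprime x y) (hyz : IsCoprime y z) (hzx : IsCoprime z x) :
    (5 : ℤ) ∣ x ∨ (5 : ℤ) ∣ y ∨ (5 : ℤ) ∣ z :=
  sophie (p := 5) (q := 11) (by norm_num) (by decide) (by decide +kernel) (by decide +kernel)
    h hxy hyz hzx

theorem caseI_7 {x y z : ℤ} (h : x ^ 7 + y ^ 7 + z ^ 7 = 0)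
    (hxy : IsCoprime x y) (hyz : IsCoprime y z) (hzx : IsCoprime z x) :
    (7 : ℤ) ∣ x ∨ (7 : ℤ) ∣ y ∨ (7 : ℤ) ∣ z :=
  sophie (p := 7) (q := 29) (by norm_num) (by decide) (by decide +kernel) (by decide +kernel)
    h hxy hyz hzx

theorem caseI_11 {x y z : ℤ} (h : x ^ 11 + y ^ 11 + z ^ 11 = 0)
    (hxy : IsCoprime x y) (hyz : IsCoprime y z) (hzx : IsCoprime z x) :
    (11 : ℤ) ∣ x ∨ (11 : ℤ) ∣ y ∨ (11 : ℤ) ∣ z :=
  sophie (p := 11) (q := 23) (by norm_num) (by decide) (by decide +kernel) (by decide +kernel)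
    h hxy hyz hzx

theorem caseI_13 {x y z : ℤ} (h : x ^ 13 + y ^ 13 + z ^ 13 = 0)
    (hxy : IsCoprime x y) (hyz : IsCoprime y z) (hzx : IsCoprime z x) :
    (13 : ℤ) ∣ x ∨ (13 : ℤ) ∣ y ∨ (13 : ℤ) ∣ z :=
  sophie (p := 13) (q := 53) (by norm_num) (by decide) (by decide +kernel) (by decide +kernel)
    h hxy hyz hzx

end Fermat.Agent.Kummer
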