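import Mathlib

set_option autoImplicit false

namespace Fermat.Agent.Kummer

open Finset Polynomial

/-- The properties of `ℤ[ζ_p]` used in the second case of Kummer's argument. -/
structure KummerHyp (R : Type*) [CommRing R] (p : ℕ) (ζ : R) : Prop where
  hζ : IsPrimitiveRoot ζ p
  hprime : Prime (ζ - 1)
  hassoc : Associated ((ζ - 1) ^ (p - 1)) (p : R)
  hres : ∀ x : R, ∃ n : ℤ, (ζ - 1) ∣ x - n
  hpow : ∀ x : R, ∃ n : ℤ, (p : R) ∣ x ^ p - n
  hint : ∀ n : ℤ, (ζ - 1) ∣ (n : R) → (p : ℤ) ∣ n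
  hkummer : ∀ (u : Rˣ) (n : ℤ), (p : R) ∣ (u : R) - n → ∃ v : Rˣ, u = v ^ p

variable {R : Type*} [CommRing R] [IsDomain R] {p : ℕ} {ζ : R}

theorem prod_range_eq (hp : p.Prime) (hodd : p ≠ 2) (hζ : IsPrimitiveRoot ζ p) (x y : R) :
    x ^ p + y ^ p = ∏ i ∈ range p, (x + ζ ^ i * y) := by
  rw [hζ.pow_add_pow_eq_prod_add_mul _ _ (hp.odd_of_ne_two hodd)]
  symm
  have : NeZero p := ⟨hp.ne_zero⟩
  refine Finset.prod_bij (fun i _ => ζ ^ i) ?_ ?_ ?_ ?_
  · intro i _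
    rw [mem_nthRootsFinset hp.pos, ← pow_mul, mul_comm, pow_mul, hζ.pow_eq_one, one_pow]
  · intro i hi j hj h
    exact hζ.pow_inj (mem_range.1 hi) (mem_range.1 hj) h
  · intro η hη
    rw [mem_nthRootsFinset hp.pos] at hη
    obtain ⟨i, hi, h⟩ := hζ.eq_pow_of_pow_eq_one hη
    exact ⟨i, mem_range.2 hi, h⟩
  · intro i _
    rfl

theorem associated_pow_sub_pow (hp : p.Prime) (hζ : IsPrimitiveRoot ζ p) {i j : ℕ}
    (hi : i < p) (hj : j < p) (hij : i ≠ j) : Associated (ζ - 1) (ζ ^ i - ζ ^ j) := by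
  have : NeZero p := ⟨hp.ne_zero⟩
  refine hζ.nthRootsFinset_pairwise_associated_sub_one_sub_of_prime hp ?_ ?_ ?_
  · simp only [mem_coe]
    rw [mem_nthRootsFinset hp.pos, ← pow_mul, mul_comm, pow_mul, hζ.pow_eq_one, one_pow]
  · simp only [mem_coe]
    rw [mem_nthRootsFinset hp.pos, ← pow_mul, mul_comm, pow_mul, hζ.pow_eq_one, one_pow]
  · intro h
    exact hij (hζ.pow_inj hi hj h)

omit [IsDomain R] in
theorem sub_one_dvd_pow_sub_one (i : ℕ) : (ζ - 1) ∣ ζ ^ i - 1 := by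
  simpa using sub_dvd_pow_sub_pow ζ 1 i

/-- normalisation: one can multiply `y` by a power of `ζ` in order to get `λ² ∣ x + y`. -/
theorem exists_rotate (hp : p.Prime) (H : KummerHyp R p ζ) {x y : R} (hy : ¬ (ζ - 1) ∣ y)
    (h1 : (ζ - 1) ∣ x + y) : ∃ i : ℕ, (ζ - 1) ^ 2 ∣ x + ζ ^ i * y := by
  have := Fact.mk hp
  obtain ⟨s, hs⟩ := h1
  obtain ⟨b, t, hb⟩ := H.hres s
  obtain ⟨c, r, hc⟩ := H.hres y
  have hcp : ¬ (p : ℤ) ∣ c := by
    rintro ⟨k, hk⟩
    apply hy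
    have h2 : (ζ - 1) ∣ (p : R) := H.hζ.sub_one_dvd_natCast hp.one_lt
    have : y = (ζ - 1) * r + (p : R) * (k : R) := by
      rw [← hc, hk]; push_cast; ring
    rw [this]
    exact dvd_add (Dvd.intro _ rfl) (h2.mul_right _)
  -- solve b + i c = 0 mod p
  have hc0 : (c : ZMod p) ≠ 0 := by
    rwa [Ne, ZMod.intCast_zmod_eq_zero_iff_dvd]
  obtain ⟨i, hi⟩ : ∃ i : ℕ, (p : ℤ) ∣ b + i * c := by
    refine ⟨(-(b : ZMod p) / c).val, ?_⟩
    rw [← ZMod.intCast_zmod_eq_zero_iff_dvd]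
    push_cast
    rw [ZMod.natCast_zmod_val]
    field_simp
    ring
  refine ⟨i, ?_⟩
  obtain ⟨k, hk⟩ := hi
  obtain ⟨e, he⟩ : (ζ - 1) ∣ (p : R) := H.hζ.sub_one_dvd_natCast hp.one_lt
  -- ζ^i - 1 = (ζ-1) * Σ ζ^j and  Σ ζ^j ≡ i mod (ζ-1)
  obtain ⟨f, hf⟩ : (ζ - 1) ∣ (∑ j ∈ range i, ζ ^ j) - (i : R) := by
    have : (∑ j ∈ range i, ζ ^ j) - (i : R) = ∑ j ∈ range i, (ζ ^ j - 1) := by
      simp
    rw [this]
    exact Finset.dvd_sum fun j _ => sub_one_dvd_pow_sub_one j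
  have hg : (∑ j ∈ range i, ζ ^ j) * (ζ - 1) = ζ ^ i - 1 := geom_sum_mul ζ i
  have hbk : (b : R) + (i : R) * (c : R) = (p : R) * (k : R) := by exact_mod_cast congrArg (Int.cast : ℤ → R) hk
  have key : x + ζ ^ i * y = (ζ - 1) * (s + (∑ j ∈ range i, ζ ^ j) * y) := by
    linear_combination hs - y * hg
  rw [key, sq]
  apply mul_dvd_mul_left
  have hy' : y = (ζ - 1) * r + c := by rw [← hc]; ring
  have hs' : s = (ζ - 1) * t + b := by rw [← hb]; ring
  have hS : (∑ j ∈ range i, ζ ^ j) = (ζ - 1) * f + i := by rw [← hf]; ring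
  refine ⟨t + f * y + i * r + e * k, ?_⟩
  rw [hS]
  linear_combination hs' + (i : R) * hy' + hbk + (k : R) * he

variable [IsPrincipalIdealRing R]

theorem caseII_step (hp : p.Prime) (hodd : p ≠ 2) (H : KummerHyp R p ζ) (m : ℕ) {x y z : R}
    {ε : Rˣ} (hxy : IsCoprime x y) (hy : ¬ (ζ - 1) ∣ y) (hz : ¬ (ζ - 1) ∣ z)
    (e : x ^ p + y ^ p = ε * ((ζ - 1) ^ (m + 1) * z) ^ p) :
    0 < m ∧ ∃ (x' y' z' : R) (ε' : Rˣ), IsCoprime x' y' ∧ ¬ (ζ - 1) ∣ y' ∧ ¬ (ζ - 1) ∣ z' ∧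
      x' ^ p + y' ^ p = ε' * ((ζ - 1) ^ m * z') ^ p := by
  have := Fact.mk hp
  have hp3 : 3 ≤ p := by
    have := hp.two_le
    omega
  have hζ := H.hζ
  have hζp := hζ.pow_eq_one
  have hζu : IsUnit ζ := hζ.isUnit hp.ne_zero
  have hl := H.hprime
  have hl0 : ζ - 1 ≠ 0 := hl.ne_zero
  -- λ divides x + y
  have h1 : (ζ - 1) ∣ x + y := by
    have h2 : (ζ - 1) ∣ ∏ i ∈ range p, (x + ζ ^ i * y) := by
      rw [← prod_range_eq hp hodd hζ, e]
      refine Dvd.dvd.mul_left ?_ _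
      exact dvd_pow (Dvd.dvd.mul_right (dvd_pow_self _ (Nat.succ_ne_zero m)) _) hp.ne_zero
    obtain ⟨i, -, hi⟩ := (hl.dvd_finsetProd_iff _).1 h2
    have : x + y = (x + ζ ^ i * y) - (ζ ^ i - 1) * y := by ring
    rw [this]
    exact dvd_sub hi (Dvd.dvd.mul_right (sub_one_dvd_pow_sub_one i) _)
  -- rotate
  obtain ⟨i0, hi0⟩ := exists_rotate hp H hy h1
  have hpow_i0 : (ζ ^ i0) ^ p = 1 := by rw [← pow_mul, mul_comm, pow_mul, hζp, one_pow]
  have hu0 : IsUnit (ζ ^ i0) := hζu.pow _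
  wlog hrot : (ζ - 1) ^ 2 ∣ x + y generalizing x y i0 with W
  · refine W (x := x) (y := ζ ^ i0 * y) ?_ ?_ ?_ ?_ 0 ?_ ?_ ?_ ?_
    · exact (isCoprime_mul_unit_left_right hu0 x y).2 hxy
    · intro h
      exact hy ((hu0.dvd_mul_left).1 h)
    · rw [mul_pow, hpow_i0, one_mul, e]
    · obtain ⟨w, hw⟩ := hi0
      exact ⟨(ζ - 1) * w, by rw [hw]; ring⟩
    · simpa using hi0
    · simp
    · simp
    · exact hi0
  clear hi0 hpow_i0 hu0 i0
  -- the factors
  have hdvd : ∀ i : ℕ, (ζ - 1) ∣ x + ζ ^ i * y := by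
    intro i
    have : x + ζ ^ i * y = (x + y) + (ζ ^ i - 1) * y := by ring
    rw [this]
    exact dvd_add h1 (Dvd.dvd.mul_right (sub_one_dvd_pow_sub_one i) _)
  choose G hG using hdvd
  have hcop : ∀ i < p, ∀ j < p, i ≠ j → IsCoprime (G i) (G j) := by
    intro i hi j hj hij
    obtain ⟨u, hu⟩ := associated_pow_sub_pow hp hζ hi hj hij
    -- (ζ^i - ζ^j) = (ζ-1) u
    have hyG : G i - G j = u * y := by
      apply mul_left_cancel₀ hl0
      rw [mul_sub, ← hG, ← hG]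
      linear_combination (-y) * hu
    have hxG : ζ ^ i * G j - ζ ^ j * G i = u * x := by
      apply mul_left_cancel₀ hl0
      rw [mul_sub, mul_left_comm, ← hG, mul_left_comm, ← hG]
      linear_combination (-x) * hu
    obtain ⟨a, b, hab⟩ := hxy
    -- a x + b y = 1
    refine ⟨(↑u⁻¹ : R) * (b - a * ζ ^ j), (↑u⁻¹ : R) * (a * ζ ^ i - b), ?_⟩
    have hinv : (↑u⁻¹ : R) * (u : R) = 1 := Units.inv_mul u
    linear_combination (↑u⁻¹ : R) * b * hyG + (↑u⁻¹ : R) * a * hxG + (a * x + b * y) * hinv + hab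
  have hG0 : (ζ - 1) ∣ G 0 := by
    have h := hG 0
    rw [pow_zero, one_mul] at h
    rw [h, sq] at hrot
    exact (mul_dvd_mul_iff_left hl0).1 hrot
  have hGi : ∀ i < p, i ≠ 0 → ¬ (ζ - 1) ∣ G i := by
    intro i hi hi0 h
    exact hl.not_isUnit ((hcop i hi 0 hp.pos hi0).isUnit_of_dvd' h hG0)
  -- product of the G i
  have hprodG : ∏ i ∈ range p, G i = ε * ((ζ - 1) ^ (m * p) * z ^ p) := by
    have h2 : (ζ - 1) ^ p * ∏ i ∈ range p, G i = x ^ p + y ^ p := by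
      rw [prod_range_eq hp hodd hζ, Finset.prod_congr rfl (fun i _ => hG i), Finset.prod_mul_distrib]
      simp
    apply mul_left_cancel₀ (pow_ne_zero p hl0)
    rw [h2, e, mul_pow, ← pow_mul]
    ring
  obtain ⟨q, rfl⟩ : ∃ q, p = q + 1 := ⟨p - 1, by omega⟩
  rw [Finset.prod_range_succ'] at hprodG
  set P' := ∏ i ∈ range q, G (i + 1) with hP'
  have hP'n : ¬ (ζ - 1) ∣ P' := by
    intro h
    obtain ⟨i, hi, hi'⟩ := (hl.dvd_finsetProd_iff _).1 h
    exact hGi (i + 1) (by have := mem_range.1 hi; omega) (by omega) hi'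
  have hm : 0 < m := by
    rcases Nat.eq_zero_or_pos m with rfl | hm
    · exfalso
      apply hz
      have : (ζ - 1) ∣ ε * ((ζ - 1) ^ (0 * (q + 1)) * z ^ (q + 1)) := by
        rw [← hprodG]
        exact Dvd.dvd.mul_left hG0 _
      rw [zero_mul, pow_zero, one_mul, (Units.isUnit ε).dvd_mul_left] at this
      exact hl.dvd_of_dvd_pow this
    · exact hm
  refine ⟨hm, ?_⟩
  -- extract the power of λ from G 0
  obtain ⟨Hh, hHh⟩ : (ζ - 1) ^ (m * (q + 1)) ∣ G 0 := by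
    apply hl.pow_dvd_of_dvd_mul_left _ hP'n
    rw [hprodG]
    exact ⟨ε * z ^ (q + 1), by ring⟩
  have hprodH : P' * Hh = ε * z ^ (q + 1) := by
    apply mul_left_cancel₀ (pow_ne_zero (m * (q + 1)) hl0)
    rw [hHh] at hprodG
    linear_combination hprodG
  have hHh_dvd : Hh ∣ G 0 := ⟨(ζ - 1) ^ (m * (q + 1)), by rw [hHh]; ring⟩
  -- Hh is a p-th power up to unit
  have hcopH : IsCoprime Hh P' := by
    apply IsCoprime.prod_right
    intro i hi
    have := mem_range.1 hi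
    exact (hcop 0 (by omega) (i + 1) (by omega) (by omega)).of_isCoprime_of_dvd_left hHh_dvd
  obtain ⟨t0, u0, hu0⟩ : ∃ d : R, Associated (d ^ (q + 1)) Hh := by
    apply exists_associated_pow_of_associated_pow_mul hcopH (c := z)
    exact ⟨ε, by rw [mul_comm Hh, hprodH]; ring⟩
  -- G i are p-th powers up to unit
  have hGpow : ∀ i < q, ∃ d : R, Associated (d ^ (q + 1)) (G (i + 1)) := by
    intro i hi
    have hmem : i ∈ range q := mem_range.2 hi
    have hsplit : P' = G (i + 1) * ∏ j ∈ (range q).erase i, G (j + 1) := by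
      rw [hP', ← Finset.mul_prod_erase _ _ hmem]
    have hcopi : IsCoprime (G (i + 1)) ((∏ j ∈ (range q).erase i, G (j + 1)) * Hh) := by
      apply IsCoprime.mul_right
      · apply IsCoprime.prod_right
        intro j hj
        rw [Finset.mem_erase, mem_range] at hj
        exact hcop (i + 1) (by omega) (j + 1) (by omega) (by omega)
      · exact ((hcop 0 (by omega) (i + 1) (by omega) (by omega)).of_isCoprime_of_dvd_left
          hHh_dvd).symm
    apply exists_associated_pow_of_associated_pow_mul hcopi (c := z)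
    refine ⟨ε, ?_⟩
    rw [← mul_assoc, ← hsplit, hprodH]
    ring
  obtain ⟨t1, u1, hu1⟩ := hGpow 0 (by omega)
  obtain ⟨t2, u2, hu2⟩ := hGpow (q - 1) (by omega)
  rw [zero_add] at hu1
  rw [Nat.sub_add_cancel (by omega)] at hu2
  -- relation
  have hrel : G 1 + ζ * G q = (1 + ζ) * G 0 := by
    apply mul_left_cancel₀ hl0
    have e1 := hG 1
    have e2 := hG q
    have e3 := hG 0
    have hz1 : ζ * ζ ^ q = 1 := by rw [← pow_succ']; exact hζp
    linear_combination (-1 : R) * e1 - ζ * e2 + (1 + ζ) * e3 + (y) * hz1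
  -- 1 + ζ is a unit
  have hunit : IsUnit (1 + ζ) := by
    have := hζ.geom_sum_isUnit hp.two_le (j := 2) (by
      rw [Nat.coprime_primes Nat.prime_two hp]; exact hodd.symm)
    simpa [Finset.sum_range_succ] using this
  obtain ⟨w, hw⟩ := hunit
  obtain ⟨zu, hzu⟩ := hζu
  -- v = ζ u2 / u1
  set v : Rˣ := zu * u2 * u1⁻¹ with hv
  have hu1inv : (u1 : R) * (↑u1⁻¹ : R) = 1 := Units.mul_inv u1
  have hmain : t1 ^ (q + 1) + v * t2 ^ (q + 1) =
      (w * u0 * u1⁻¹ : Rˣ) * ((ζ - 1) ^ m * t0) ^ (q + 1) := by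
    have : t1 ^ (q + 1) * u1 + ζ * (t2 ^ (q + 1) * u2) =
        (1 + ζ) * ((ζ - 1) ^ (m * (q + 1)) * (t0 ^ (q + 1) * u0)) := by
      rw [hu1, hu2, hrel, hHh, hu0]
    rw [hv]
    push_cast
    rw [hzu, hw, mul_pow, ← pow_mul]
    linear_combination (↑u1⁻¹ : R) * this - t1 ^ (q + 1) * hu1inv
  have ht2 : ¬ (ζ - 1) ∣ t2 := by
    intro h
    apply hGi q (by omega) (by omega)
    rw [← hu2]
    exact Dvd.dvd.mul_right (dvd_pow h (by omega)) _
  -- v is congruent to an integer mod p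
  obtain ⟨n, hn⟩ : ∃ n : ℤ, ((q + 1 : ℕ) : R) ∣ (v : R) - n := by
    obtain ⟨a1, r1, ha1⟩ := H.hpow t1
    obtain ⟨a2, r2, ha2⟩ := H.hpow t2
    have ha2p : ¬ ((q + 1 : ℕ) : ℤ) ∣ a2 := by
      rintro ⟨k, hk⟩
      apply ht2
      have h2 : (ζ - 1) ∣ ((q + 1 : ℕ) : R) := hζ.sub_one_dvd_natCast hp.one_lt
      apply hl.dvd_of_dvd_pow (n := q + 1)
      have : t2 ^ (q + 1) = ((q + 1 : ℕ) : R) * r2 + ((q + 1 : ℕ) : R) * (k : R) := by
        rw [← ha2, hk]; push_cast; ring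
      rw [this, ← mul_add]
      exact Dvd.dvd.mul_right h2 _
    -- p divides λ^{m p}
    obtain ⟨s, hs⟩ : ((q + 1 : ℕ) : R) ∣ ((ζ - 1) ^ m * t0) ^ (q + 1) := by
      refine H.hassoc.symm.dvd.trans ?_
      rw [mul_pow, ← pow_mul]
      refine Dvd.dvd.mul_right (pow_dvd_pow _ ?_) _
      have : 1 * (q + 1) ≤ m * (q + 1) := Nat.mul_le_mul_right _ hm
      omega
    have hc0 : (a2 : ZMod (q + 1)) ≠ 0 := by
      rwa [Ne, ZMod.intCast_zmod_eq_zero_iff_dvd]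
    obtain ⟨b2, k, hb2⟩ : ∃ b2 : ℤ, ((q + 1 : ℕ) : ℤ) ∣ a2 * b2 - 1 := by
      refine ⟨((a2 : ZMod (q + 1))⁻¹).val, ?_⟩
      rw [← ZMod.intCast_zmod_eq_zero_iff_dvd]
      push_cast
      rw [ZMod.natCast_zmod_val, mul_inv_cancel₀ hc0, sub_self]
    have hb2' : (a2 : R) * (b2 : R) - 1 = ((q + 1 : ℕ) : R) * (k : R) := by
      exact_mod_cast congrArg (Int.cast : ℤ → R) hb2
    generalize ((w * u0 * u1⁻¹ : Rˣ) : R) = W0 at hmain
    refine ⟨-a1 * b2, -(v : R) * k - (v : R) * r2 * b2 + W0 * s * b2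
      - r1 * b2, ?_⟩
    push_cast at hs ha1 ha2 hb2' ⊢
    linear_combination (-(v : R)) * hb2' - (v : R) * b2 * ha2 + (b2 : R) * hmain
      + W0 * b2 * hs - (b2 : R) * ha1
  obtain ⟨v', hv'⟩ := H.hkummer v n hn
  refine ⟨t1, v' * t2, t0, w * u0 * u1⁻¹, ?_, ?_, ?_, ?_⟩
  · -- coprime
    rw [isCoprime_mul_unit_left_right v'.isUnit]
    have h12 : IsCoprime (G 1) (G q) := hcop 1 (by omega) q (by omega) (by omega)
    rw [← hu1, ← hu2, isCoprime_mul_unit_right_left u1.isUnit,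
      isCoprime_mul_unit_right_right u2.isUnit] at h12
    exact (IsCoprime.pow_iff (by omega) (by omega)).1 h12
  · rw [v'.isUnit.dvd_mul_left]
    exact ht2
  · intro h
    apply hz
    apply hl.dvd_of_dvd_pow (n := q + 1)
    rw [← (Units.isUnit ε).dvd_mul_left, ← hprodH, ← hu0]
    exact Dvd.dvd.mul_left (Dvd.dvd.mul_right (dvd_pow h (by omega)) _) _
  · rw [mul_pow, ← hmain, hv']
    push_cast
    ring

theorem caseII_aux (hp : p.Prime) (hodd : p ≠ 2) (H : KummerHyp R p ζ) (m : ℕ) :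
    ∀ (x y z : R) (ε : Rˣ), IsCoprime x y → ¬ (ζ - 1) ∣ y → ¬ (ζ - 1) ∣ z →
      x ^ p + y ^ p ≠ ε * ((ζ - 1) ^ (m + 1) * z) ^ p := by
  induction m with
  | zero =>
    intro x y z ε h1 h2 h3 h4
    exact absurd (caseII_step hp hodd H 0 h1 h2 h3 h4).1 (lt_irrefl 0)
  | succ m ih =>
    intro x y z ε h1 h2 h3 h4
    obtain ⟨-, x', y', z', ε', h1', h2', h3', h4'⟩ := caseII_step hp hodd H (m + 1) h1 h2 h3 h4
    exact ih x' y' z' ε' h1' h2' h3' h4'

/-- Second case of Fermat's last theorem, given the properties in `KummerHyp`. -/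
theorem caseII (hp : p.Prime) (hodd : p ≠ 2) (H : KummerHyp R p ζ) [CharZero R] {a b c : ℤ}
    (hc : c ≠ 0) (hab : IsCoprime a b) (hpc : (p : ℤ) ∣ c) :
    a ^ p + b ^ p ≠ c ^ p := by
  intro h
  have hpb : ¬ (p : ℤ) ∣ b := by
    intro hb
    have ha : (p : ℤ) ∣ a := by
      have : (p : ℤ) ∣ a ^ p := by
        have : a ^ p = c ^ p - b ^ p := by rw [← h]; ring
        rw [this]
        exact dvd_sub (dvd_pow hpc hp.ne_zero) (dvd_pow hb hp.ne_zero)
      exact (Nat.prime_iff_prime_int.1 hp).dvd_of_dvd_pow this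
    exact (Nat.prime_iff_prime_int.1 hp).not_isUnit (hab.isUnit_of_dvd' ha hb)
  -- c = p ^ k * c'
  obtain ⟨k, c', hc', hcc⟩ := WfDvdMonoid.max_power_factor hc (Nat.prime_iff_prime_int.1 hp).irreducible
  have hk : 0 < k := by
    rcases Nat.eq_zero_or_pos k with rfl | hk
    · rw [pow_zero, one_mul] at hcc
      rw [hcc] at hpc
      exact absurd hpc hc'
    · exact hk
  obtain ⟨u, hu⟩ := H.hassoc
  have hp2 := hp.two_le
  have hexp : ∃ m, (p - 1) * k = m + 1 := by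
    refine ⟨(p - 1) * k - 1, ?_⟩
    have : 0 < (p - 1) * k := Nat.mul_pos (by omega) hk
    omega
  obtain ⟨m, hm⟩ := hexp
  refine caseII_aux hp hodd H m (a : R) (b : R) (c' : R) (u ^ (k * p)) ?_ ?_ ?_ ?_
  · obtain ⟨s, t, hst⟩ := hab
    exact ⟨(s : R), (t : R), by exact_mod_cast congrArg (Int.cast : ℤ → R) hst⟩
  · intro h'
    exact hpb (H.hint b h')
  · intro h'
    exact hc' (H.hint c' h')
  · have e1 : (a : R) ^ p + (b : R) ^ p = (c : R) ^ p := by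
      exact_mod_cast congrArg (Int.cast : ℤ → R) h
    rw [e1, hcc]
    push_cast
    rw [← hu, ← hm]
    ring

end Fermat.Agent.Kummer
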