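import Mathlib
import Fermat.Agent.Kummer.CaseII

set_option autoImplicit false

namespace Fermat.Agent.Kummer

open Polynomial NumberField

variable {p : ℕ} [hp : Fact p.Prime] {K : Type*} [Field K] [NumberField K]
  [IsCyclotomicExtension {p} ℚ K] {ζ : K}

theorem induction_zeta (hζ : IsPrimitiveRoot ζ p) (P : 𝓞 K → Prop) (hz : P hζ.toInteger)
    (hint : ∀ n : ℤ, P n) (hadd : ∀ x y, P x → P y → P (x + y))
    (hmul : ∀ x y, P x → P y → P (x * y)) (x : 𝓞 K) : P x := by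
  have h : x ∈ Algebra.adjoin ℤ {hζ.integralPowerBasis.gen} := by
    rw [hζ.integralPowerBasis.adjoin_gen_eq_top]
    trivial
  induction h using Algebra.adjoin_induction with
  | mem x hx =>
    rw [Set.mem_singleton_iff] at hx
    rw [hx, IsPrimitiveRoot.integralPowerBasis_gen]
    exact hz
  | algebraMap r => exact hint r
  | add x y _ _ hx hy => exact hadd x y hx hy
  | mul x y _ _ hx hy => exact hmul x y hx hy

theorem kummerHyp (hζ : IsPrimitiveRoot ζ p)
    (hk : ∀ (u : (𝓞 K)ˣ) (n : ℤ), (p : 𝓞 K) ∣ (u : 𝓞 K) - n → ∃ v : (𝓞 K)ˣ, u = v ^ p) :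
    KummerHyp (𝓞 K) p hζ.toInteger where
  hζ := hζ.toInteger_isPrimitiveRoot
  hprime := hζ.zeta_sub_one_prime'
  hassoc := IsCyclotomicExtension.Rat.associated_zeta_sub_one_pow_prime p hζ
  hres := by
    refine induction_zeta hζ _ ⟨1, by simp⟩ (fun n => ⟨n, by simp⟩) ?_ ?_
    · rintro x y ⟨n, hn⟩ ⟨m, hm⟩
      refine ⟨n + m, ?_⟩
      have : x + y - ((n + m : ℤ) : 𝓞 K) = (x - n) + (y - m) := by push_cast; ring
      rw [this]
      exact dvd_add hn hm
    · rintro x y ⟨n, hn⟩ ⟨m, hm⟩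
      refine ⟨n * m, ?_⟩
      have : x * y - ((n * m : ℤ) : 𝓞 K) = (x - n) * y + (y - m) * n := by push_cast; ring
      rw [this]
      exact dvd_add (hn.mul_right _) (hm.mul_right _)
  hpow := by
    refine induction_zeta hζ _ ⟨1, ?_⟩ (fun n => ⟨n ^ p, by simp⟩) ?_ ?_
    · rw [hζ.toInteger_isPrimitiveRoot.pow_eq_one]
      simp
    · rintro x y ⟨n, hn⟩ ⟨m, hm⟩
      refine ⟨n + m, ?_⟩
      obtain ⟨r, hr⟩ := exists_add_pow_prime_eq hp.out x y
      have : (x + y) ^ p - ((n + m : ℤ) : 𝓞 K) = (x ^ p - n) + (y ^ p - m) + p * x * y * r := by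
        rw [hr]; push_cast; ring
      rw [this]
      exact dvd_add (dvd_add hn hm) ⟨x * y * r, by ring⟩
    · rintro x y ⟨n, hn⟩ ⟨m, hm⟩
      refine ⟨n * m, ?_⟩
      have : (x * y) ^ p - ((n * m : ℤ) : 𝓞 K) = (x ^ p - n) * y ^ p + (y ^ p - m) * n := by
        rw [mul_pow]; push_cast; ring
      rw [this]
      exact dvd_add (hn.mul_right _) (hm.mul_right _)
  hint := fun n hn => (IsCyclotomicExtension.Rat.zeta_sub_one_dvd_intCast_iff' p hζ).1 hn
  hkummer := hk

end Fermat.Agent.Kummer
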