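import Mathlib
import Fermat.Agent.Kummer.CaseII

set_option autoImplicit false

namespace Fermat.Agent.Kummer

open Polynomial NumberField NumberField.Units

/-- The truncated polynomial ring `F_p[X]/(X^(p-2))`. -/
abbrev TR (p : ℕ) : Type := (ZMod p)[X] ⧸ Ideal.span {(X : (ZMod p)[X]) ^ (p - 2)}

section dlog

variable {A : Type*} [CommRing A]

/-- The logarithmic derivative on units of the dual numbers. -/
def dlog : (DualNumber A)ˣ →* Multiplicative A where
  toFun w := Multiplicative.ofAdd ((w : DualNumber A).snd * ((w⁻¹ : (DualNumber A)ˣ) : DualNumber A).fst)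
  map_one' := by
    simp
  map_mul' u v := by
    have hu : (u : DualNumber A).fst * ((u⁻¹ : (DualNumber A)ˣ) : DualNumber A).fst = 1 := by
      rw [← TrivSqZeroExt.fst_mul, Units.mul_inv, TrivSqZeroExt.fst_one]
    have hv : (v : DualNumber A).fst * ((v⁻¹ : (DualNumber A)ˣ) : DualNumber A).fst = 1 := by
      rw [← TrivSqZeroExt.fst_mul, Units.mul_inv, TrivSqZeroExt.fst_one]
    rw [← ofAdd_add]
    congr 1
    rw [mul_inv_rev, Units.val_mul, Units.val_mul, TrivSqZeroExt.snd_mul, TrivSqZeroExt.fst_mul]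
    simp only [smul_eq_mul, MulOpposite.smul_eq_mul_unop, MulOpposite.unop_op]
    linear_combination (u : DualNumber A).snd * ((u⁻¹ : (DualNumber A)ˣ) : DualNumber A).fst * hv +
      (v : DualNumber A).snd * ((v⁻¹ : (DualNumber A)ˣ) : DualNumber A).fst * hu

theorem dlog_eq {w : (DualNumber A)ˣ} {P : A}
    (h : P * (w : DualNumber A).fst = (w : DualNumber A).snd) :
    dlog w = Multiplicative.ofAdd P := by
  have hw : (w : DualNumber A).fst * ((w⁻¹ : (DualNumber A)ˣ) : DualNumber A).fst = 1 := by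
    rw [← TrivSqZeroExt.fst_mul, Units.mul_inv, TrivSqZeroExt.fst_one]
  change Multiplicative.ofAdd _ = _
  congr 1
  rw [← h, mul_assoc, hw, mul_one]

end dlog

section

variable {p : ℕ} [hp : Fact p.Prime]

/-- The element `(1+X)(1+ε)`. -/
noncomputable def yy (p : ℕ) : DualNumber (TR p) :=
  TrivSqZeroExt.inl (Ideal.Quotient.mk _ (1 + X)) + TrivSqZeroExt.inr (Ideal.Quotient.mk _ (1 + X))

theorem fst_yy : (yy p).fst = Ideal.Quotient.mk _ (1 + X) := by
  simp [yy]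

theorem snd_yy : (yy p).snd = Ideal.Quotient.mk _ (1 + X) := by
  simp [yy]

theorem fst_yy_pow (a : ℕ) : (yy p ^ a).fst = Ideal.Quotient.mk _ ((1 + X) ^ a) := by
  rw [TrivSqZeroExt.fst_pow, fst_yy, map_pow]

theorem snd_yy_pow (a : ℕ) : (yy p ^ a).snd = Ideal.Quotient.mk _ (C (a : ZMod p) * (1 + X) ^ a) := by
  rw [TrivSqZeroExt.snd_pow, fst_yy, snd_yy]
  rcases a with _ | a
  · simp
  · rw [Nat.pred_succ, smul_eq_mul, ← map_pow, ← map_mul, ← map_nsmul]
    congr 1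
    rw [nsmul_eq_mul, pow_succ]
    simp

theorem X_pow_TR {k : ℕ} (hk : p - 2 ≤ k) :
    (Ideal.Quotient.mk (Ideal.span {(X : (ZMod p)[X]) ^ (p - 2)}) X) ^ k = 0 := by
  rw [← map_pow, Ideal.Quotient.eq_zero_iff_mem, Ideal.mem_span_singleton]
  exact pow_dvd_pow _ hk

theorem yy_sub_one_pow (h3 : 3 ≤ p) : (yy p - 1) ^ (p - 1) = 0 := by
  have h1 : (yy p - 1).fst = Ideal.Quotient.mk _ X := by
    rw [TrivSqZeroExt.fst_sub, fst_yy, TrivSqZeroExt.fst_one]
    simp
  ext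
  · rw [TrivSqZeroExt.fst_pow, h1, X_pow_TR (by omega), TrivSqZeroExt.fst_zero]
  · rw [TrivSqZeroExt.snd_pow, h1]
    rw [X_pow_TR (by rw [Nat.pred_eq_sub_one]; omega)]
    simp

theorem cyclotomic_mod : cyclotomic p (ZMod p) = (X - 1) ^ (p - 1) := by
  have h := cyclotomic_mul_prime_eq_pow_of_not_dvd (ZMod p) (p := p) (n := 1)
    (by rw [Nat.dvd_one]; exact hp.out.ne_one)
  rwa [one_mul, cyclotomic_one] at h

theorem aeval_yy (h3 : 3 ≤ p) : aeval (yy p) (cyclotomic p ℤ) = 0 := by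
  have : aeval (yy p) (cyclotomic p ℤ) = aeval (yy p) (cyclotomic p (ZMod p)) := by
    have hh : algebraMap ℤ (DualNumber (TR p)) =
        (algebraMap (ZMod p) (DualNumber (TR p))).comp (Int.castRingHom (ZMod p)) :=
      RingHom.ext_int _ _
    rw [← map_cyclotomic_int p (ZMod p), aeval_def, aeval_def, eval₂_map, hh]
  rw [this, cyclotomic_mod, map_pow, map_sub, aeval_X, map_one, yy_sub_one_pow h3]

variable {K : Type*} [Field K] [NumberField K] [IsCyclotomicExtension {p} ℚ K] {ζ : K}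

omit [IsCyclotomicExtension {p} ℚ K] in
theorem minpoly_toInteger (hζ : IsPrimitiveRoot ζ p) :
    minpoly ℤ hζ.toInteger = cyclotomic p ℤ := by
  rw [cyclotomic_eq_minpoly hζ hp.out.pos]
  exact (minpoly.algebraMap_eq RingOfIntegers.coe_injective hζ.toInteger).symm

/-- The ring homomorphism `ζ ↦ (1+X)(1+ε)`. -/
noncomputable def Psi (hζ : IsPrimitiveRoot ζ p) (h3 : 3 ≤ p) : 𝓞 K →ₐ[ℤ] DualNumber (TR p) :=
  hζ.integralPowerBasis.lift (yy p) (by
    rw [IsPrimitiveRoot.integralPowerBasis_gen, minpoly_toInteger hζ]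
    exact aeval_yy h3)

theorem Psi_zeta (hζ : IsPrimitiveRoot ζ p) (h3 : 3 ≤ p) : Psi hζ h3 hζ.toInteger = yy p := by
  have h := hζ.integralPowerBasis.lift_gen (yy p) (by
    rw [IsPrimitiveRoot.integralPowerBasis_gen, minpoly_toInteger hζ]
    exact aeval_yy h3)
  simp only [IsPrimitiveRoot.integralPowerBasis_gen] at h
  exact h

/-- The logarithmic derivative on units of `𝓞 K`. -/
noncomputable def Lg (hζ : IsPrimitiveRoot ζ p) (h3 : 3 ≤ p) :
    (𝓞 K)ˣ →* Multiplicative (TR p) :=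
  dlog.comp (Units.map (Psi hζ h3 : 𝓞 K →* DualNumber (TR p)))

/-- `Lg` written additively, as a function. -/
noncomputable def lg (hζ : IsPrimitiveRoot ζ p) (h3 : 3 ≤ p) (u : (𝓞 K)ˣ) : TR p :=
  Multiplicative.toAdd (Lg hζ h3 u)

theorem lg_mul (hζ : IsPrimitiveRoot ζ p) (h3 : 3 ≤ p) (u v : (𝓞 K)ˣ) :
    lg hζ h3 (u * v) = lg hζ h3 u + lg hζ h3 v := by
  simp [lg]

theorem lg_zpow (hζ : IsPrimitiveRoot ζ p) (h3 : 3 ≤ p) (u : (𝓞 K)ˣ) (n : ℤ) :
    lg hζ h3 (u ^ n) = (n : ZMod p) • lg hζ h3 u := by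
  simp only [lg, map_zpow, toAdd_zpow]
  rw [Int.cast_smul_eq_zsmul]

theorem lg_pow (hζ : IsPrimitiveRoot ζ p) (h3 : 3 ≤ p) (u : (𝓞 K)ˣ) (n : ℕ) :
    lg hζ h3 (u ^ n) = (n : ZMod p) • lg hζ h3 u := by
  have := lg_zpow hζ h3 u n
  simpa using this

theorem lg_prod (hζ : IsPrimitiveRoot ζ p) (h3 : 3 ≤ p) {ι : Type*} (s : Finset ι)
    (f : ι → (𝓞 K)ˣ) : lg hζ h3 (∏ i ∈ s, f i) = ∑ i ∈ s, lg hζ h3 (f i) := by
  simp [lg, map_prod, toAdd_prod]

theorem lg_eq (hζ : IsPrimitiveRoot ζ p) (h3 : 3 ≤ p) {u : (𝓞 K)ˣ} {P : TR p}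
    (h : P * (Psi hζ h3 (u : 𝓞 K)).fst = (Psi hζ h3 (u : 𝓞 K)).snd) : lg hζ h3 u = P := by
  have := dlog_eq (w := Units.map (Psi hζ h3 : 𝓞 K →* DualNumber (TR p)) u) (P := P) h
  exact congrArg Multiplicative.toAdd this

theorem lg_neg_one (hζ : IsPrimitiveRoot ζ p) (h3 : 3 ≤ p) : lg hζ h3 (-1) = 0 := by
  apply lg_eq
  simp

theorem natCast_p_eq_zero : ((p : ℕ) : DualNumber (TR p)) = 0 := by
  have : ((p : ℕ) : DualNumber (TR p)) = algebraMap (ZMod p) (DualNumber (TR p)) (p : ZMod p) := by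
    rw [map_natCast]
  rw [this, CharP.cast_eq_zero, map_zero]

theorem lg_of_congr (hζ : IsPrimitiveRoot ζ p) (h3 : 3 ≤ p) {u : (𝓞 K)ˣ} {n : ℤ}
    (h : (p : 𝓞 K) ∣ (u : 𝓞 K) - n) : lg hζ h3 u = 0 := by
  apply lg_eq
  obtain ⟨k, hk⟩ := h
  have hu : (u : 𝓞 K) = p * k + n := by rw [← hk]; ring
  have e : Psi hζ h3 (u : 𝓞 K) = (n : DualNumber (TR p)) := by
    rw [hu, map_add, map_mul, map_natCast, natCast_p_eq_zero, zero_mul, zero_add, map_intCast]
  rw [e]
  simp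

theorem lg_zeta (hζ : IsPrimitiveRoot ζ p) (h3 : 3 ≤ p) {u : (𝓞 K)ˣ}
    (hu : (u : 𝓞 K) = hζ.toInteger) : lg hζ h3 u = 1 := by
  apply lg_eq
  rw [hu, Psi_zeta, fst_yy, snd_yy, one_mul]

/-- Coefficient criterion for the value of `lg` on `1 + ζ^a`. -/
theorem lg_one_add (hζ : IsPrimitiveRoot ζ p) (h3 : 3 ≤ p) {u : (𝓞 K)ˣ} {a : ℕ}
    (hu : (u : 𝓞 K) = 1 + hζ.toInteger ^ a) (P : (ZMod p)[X])
    (hP : ∀ n < p - 2, (P * (1 + (1 + X) ^ a)).coeff n = (a : ZMod p) * (a.choose n : ZMod p)) :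
    lg hζ h3 u = Ideal.Quotient.mk _ P := by
  apply lg_eq
  rw [hu, map_add, map_one, map_pow, Psi_zeta, TrivSqZeroExt.fst_add, TrivSqZeroExt.snd_add,
    fst_yy_pow, snd_yy_pow, TrivSqZeroExt.fst_one, TrivSqZeroExt.snd_one, zero_add,
    ← map_one (Ideal.Quotient.mk _), ← map_add, ← map_mul, Ideal.Quotient.eq,
    Ideal.mem_span_singleton, X_pow_dvd_iff]
  intro n hn
  rw [coeff_sub, hP n hn, coeff_C_mul, coeff_one_add_X_pow, sub_self]

omit [NumberField K] [IsCyclotomicExtension {p} ℚ K] in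
/-- The units `ζ` and `1 + ζ^a`, `1 ≤ a`. -/
theorem exists_units (hζ : IsPrimitiveRoot ζ p) (h3 : 3 ≤ p) (a : ℕ) (ha : a < p) :
    ∃ u : (𝓞 K)ˣ, (u : 𝓞 K) = if a = 0 then hζ.toInteger else 1 + hζ.toInteger ^ a := by
  by_cases h0 : a = 0
  · subst h0
    obtain ⟨u, hu⟩ := hζ.toInteger_isPrimitiveRoot.isUnit hp.out.ne_zero
    exact ⟨u, by simp [hu]⟩
  · have hcop : a.Coprime p := (Nat.coprime_of_lt_prime (by omega) ha hp.out).symm
    have hpr := hζ.toInteger_isPrimitiveRoot.pow_of_coprime a hcop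
    have := hpr.geom_sum_isUnit hp.out.two_le (j := 2) (by
      rw [Nat.coprime_primes Nat.prime_two hp.out]; omega)
    obtain ⟨u, hu⟩ := this
    refine ⟨u, ?_⟩
    rw [hu, if_neg h0]
    simp [Finset.sum_range_succ]

omit hp in
theorem rank_eq (hp' : p.Prime) (h3 : 3 ≤ p) : rank K = (p - 1) / 2 - 1 := by
  have := Fact.mk hp'
  have hne : NeZero p := ⟨hp'.ne_zero⟩
  unfold rank
  rw [InfinitePlace.card_eq_nrRealPlaces_add_nrComplexPlaces,
    IsCyclotomicExtension.Rat.nrRealPlaces_eq_zero (n := p) K (by omega),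
    IsCyclotomicExtension.Rat.nrComplexPlaces_eq_totient_div_two p, Nat.totient_prime hp', zero_add]

/-- Kummer's lemma, reduced to a linear algebra statement. -/
theorem kummer_of_linearIndependent (hζ : IsPrimitiveRoot ζ p) (h3 : 3 ≤ p) {r : ℕ}
    (hr : r = (p - 1) / 2 - 1) (w : Fin (r + 1) → (𝓞 K)ˣ)
    (hw : LinearIndependent (ZMod p) (fun j => lg hζ h3 (w j))) (u : (𝓞 K)ˣ) (n : ℤ)
    (hu : (p : 𝓞 K) ∣ (u : 𝓞 K) - n) : ∃ v : (𝓞 K)ˣ, u = v ^ p := by
  have hrank : rank K = r := by rw [rank_eq hp.out h3, hr]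
  have hodd : Odd p := hp.out.odd_of_ne_two (by omega)
  obtain ⟨z, hz⟩ := hζ.toInteger_isPrimitiveRoot.isUnit hp.out.ne_zero
  subst hrank
  -- the generating family
  set g : Fin (rank K + 1) → TR p := Fin.cons (lg hζ h3 z) (fun i => lg hζ h3 (fundSystem K i))
    with hg
  -- torsion
  have htors : ∀ τ : torsion K, ∃ k : ℕ, (τ : (𝓞 K)ˣ) = (-z) ^ k := by
    intro τ
    have hfin : IsOfFinOrder ((τ : (𝓞 K)ˣ) : K) := by
      obtain ⟨n, hnpos, hn⟩ := isOfFinOrder_iff_pow_eq_one.1 ((CommGroup.mem_torsion _).1 τ.2)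
      rw [isOfFinOrder_iff_pow_eq_one]
      refine ⟨n, hnpos, ?_⟩
      have := congrArg (fun x : (𝓞 K)ˣ => ((x : 𝓞 K) : K)) hn
      simpa using this
    obtain ⟨k, hk⟩ := hζ.exists_neg_pow_of_isOfFinOrder hodd hfin
    refine ⟨k, ?_⟩
    apply Units.ext
    apply RingOfIntegers.coe_injective
    refine hk.trans ?_
    rw [Units.val_pow_eq_pow_val, Units.val_neg, hz, map_pow, map_neg]
    rfl
  have hlgneg : lg hζ h3 (-z) = lg hζ h3 z := by
    rw [neg_eq_neg_one_mul, lg_mul, lg_neg_one, zero_add]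
  have hrepr : ∀ x : (𝓞 K)ˣ, ∃ (k : ℕ) (e : Fin (rank K) → ℤ),
      x = (-z) ^ k * ∏ i, fundSystem K i ^ e i := by
    intro x
    obtain ⟨⟨τ, e⟩, hx, -⟩ := exist_unique_eq_mul_prod K x
    obtain ⟨k, hk⟩ := htors τ
    exact ⟨k, e, by rw [hx, hk]⟩
  have hlg : ∀ (k : ℕ) (e : Fin (rank K) → ℤ), lg hζ h3 ((-z) ^ k * ∏ i, fundSystem K i ^ e i) =
      ∑ i, (Fin.cons (k : ZMod p) (fun i => (e i : ZMod p)) : Fin (rank K + 1) → ZMod p) i • g i := by
    intro k e
    rw [lg_mul, lg_pow, hlgneg, lg_prod, Fin.sum_univ_succ, hg]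
    simp only [Fin.cons_zero, Fin.cons_succ]
    congr 1
    exact Finset.sum_congr rfl fun i _ => lg_zpow _ _ _ _
  have hspan : Submodule.span (ZMod p) (Set.range (fun j => lg hζ h3 (w j))) ≤
      Submodule.span (ZMod p) (Set.range g) := by
    rw [Submodule.span_le]
    rintro _ ⟨j, rfl⟩
    obtain ⟨k, e, hx⟩ := hrepr (w j)
    change lg hζ h3 (w j) ∈ _
    rw [hx, hlg]
    exact Submodule.sum_mem _ fun i _ => Submodule.smul_mem _ _ (Submodule.subset_span ⟨i, rfl⟩)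
  have hgind : LinearIndependent (ZMod p) g := by
    rw [linearIndependent_iff_card_le_finrank_span]
    have h1 := finrank_span_eq_card hw
    have : Module.Finite (ZMod p) (Submodule.span (ZMod p) (Set.range g)) :=
      Module.Finite.span_of_finite (ZMod p) (Set.finite_range g)
    rw [Set.finrank, ← h1]
    exact Submodule.finrank_mono hspan
  obtain ⟨k, e, hx⟩ := hrepr u
  have h0 := lg_of_congr hζ h3 hu
  rw [hx, hlg] at h0
  have h1 := Fintype.linearIndependent_iff.1 hgind _ h0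
  have hk : (k : ZMod p) = 0 := by simpa using h1 0
  have he : ∀ i, (e i : ZMod p) = 0 := fun i => by simpa using h1 i.succ
  rw [ZMod.natCast_eq_zero_iff] at hk
  obtain ⟨k', rfl⟩ := hk
  have he' : ∀ i, ∃ f : ℤ, e i = p * f := fun i => by
    have := he i
    rw [ZMod.intCast_zmod_eq_zero_iff_dvd] at this
    exact this
  choose f hf using he'
  refine ⟨(-z) ^ k' * ∏ i, fundSystem K i ^ f i, ?_⟩
  rw [hx, mul_pow, ← pow_mul, mul_comm k' p, ← Finset.prod_pow]
  congr 1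
  refine Finset.prod_congr rfl fun i _ => ?_
  rw [hf i, mul_comm (p : ℤ), zpow_mul, zpow_natCast]

/-- The polynomial with given coefficients. -/
noncomputable def polyOf {m : ℕ} (v : Fin m → ZMod p) : (ZMod p)[X] :=
  ∑ k : Fin m, C (v k) * X ^ (k : ℕ)

theorem coeff_polyOf_mul {m : ℕ} (v : Fin m → ZMod p) (Q : (ZMod p)[X]) (n : ℕ) :
    (polyOf v * Q).coeff n = ∑ k : Fin m, if (k : ℕ) ≤ n then v k * Q.coeff (n - k) else 0 := by
  rw [polyOf, Finset.sum_mul, finsetSum_coeff]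
  refine Finset.sum_congr rfl fun k _ => ?_
  rw [mul_assoc, coeff_C_mul, coeff_X_pow_mul']
  split_ifs <;> simp

theorem coeff_polyOf {m : ℕ} (v : Fin m → ZMod p) (n : Fin m) :
    (polyOf v).coeff n = v n := by
  rw [polyOf, finsetSum_coeff, Finset.sum_eq_single n]
  · simp
  · intro b _ hb
    rw [coeff_C_mul, coeff_X_pow, if_neg, mul_zero]
    intro h
    exact hb (Fin.ext h.symm)
  · simp

theorem kummer_of_matrix (hζ : IsPrimitiveRoot ζ p) (h3 : 3 ≤ p) {r : ℕ}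
    (hr : r = (p - 1) / 2 - 1)
    (M : Matrix (Fin (p - 2)) (Fin (r + 1)) (ZMod p))
    (N : Matrix (Fin (r + 1)) (Fin (p - 2)) (ZMod p))
    (hNM : N * M = 1)
    (h0 : ∀ k : Fin (p - 2), M k 0 = if (k : ℕ) = 0 then 1 else 0)
    (ha : ∀ (a : Fin r) (n : Fin (p - 2)),
      (∑ k : Fin (p - 2), if (k : ℕ) ≤ n then
        M k a.succ * ((if (n : ℕ) - k = 0 then 1 else 0) +
          (Nat.choose (a + 1) (n - k) : ZMod p)) else 0) =
      ((a : ℕ) + 1 : ZMod p) * (Nat.choose (a + 1) n : ZMod p))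
    (u : (𝓞 K)ˣ) (n : ℤ) (hu : (p : 𝓞 K) ∣ (u : 𝓞 K) - n) : ∃ v : (𝓞 K)ˣ, u = v ^ p := by
  have hex : ∀ j : Fin (r + 1), ∃ u : (𝓞 K)ˣ, (u : 𝓞 K) =
      if (j : ℕ) = 0 then hζ.toInteger else 1 + hζ.toInteger ^ (j : ℕ) := by
    intro j
    exact exists_units hζ h3 j (by have := j.2; omega)
  choose w hw using hex
  have hlgw : ∀ j, lg hζ h3 (w j) = Ideal.Quotient.mk _ (polyOf (fun k => M k j)) := by
    intro j
    refine Fin.cases (motive := fun j => lg hζ h3 (w j) =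
      Ideal.Quotient.mk _ (polyOf (fun k => M k j))) ?_ (fun a => ?_) j
    · rw [lg_zeta hζ h3 (by simpa using hw 0), ← map_one (Ideal.Quotient.mk _), Ideal.Quotient.eq,
        Ideal.mem_span_singleton, X_pow_dvd_iff]
      intro n hn
      rw [coeff_sub, coeff_one]
      have := coeff_polyOf (fun k => M k 0) ⟨n, hn⟩
      simp only at this
      rw [this, h0]
      simp
    · apply lg_one_add hζ h3 (a := (a : ℕ) + 1)
      · simpa using hw a.succ
      · intro n hn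
        rw [coeff_polyOf_mul]
        have := ha a ⟨n, hn⟩
        simp only [coeff_add, coeff_one, coeff_one_add_X_pow] at this ⊢
        rw [this]
        push_cast
        rfl
  apply kummer_of_linearIndependent hζ h3 hr w _ u n hu
  rw [Fintype.linearIndependent_iff]
  intro c hc
  have h1 : Ideal.Quotient.mk (Ideal.span {(X : (ZMod p)[X]) ^ (p - 2)})
      (polyOf (M.mulVec c)) = 0 := by
    rw [← hc]
    simp only [hlgw]
    have : ∀ j, c j • (Ideal.Quotient.mk (Ideal.span {(X : (ZMod p)[X]) ^ (p - 2)})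
        (polyOf (fun k => M k j))) = Ideal.Quotient.mk _ (C (c j) * polyOf (fun k => M k j)) := by
      intro j
      rw [← smul_eq_C_mul]
      rfl
    simp only [this]
    rw [← map_sum]
    congr 1
    simp only [polyOf, Finset.mul_sum]
    rw [Finset.sum_comm]
    refine Finset.sum_congr rfl fun k _ => ?_
    rw [Matrix.mulVec, dotProduct, map_sum, Finset.sum_mul]
    refine Finset.sum_congr rfl fun j _ => ?_
    rw [map_mul]
    ring
  rw [Ideal.Quotient.eq_zero_iff_mem, Ideal.mem_span_singleton, X_pow_dvd_iff] at h1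
  have h2 : M.mulVec c = 0 := by
    ext k
    have := h1 k k.2
    rwa [coeff_polyOf] at this
  have h3 : c = 0 := by
    have : (N * M).mulVec c = 0 := by
      rw [← Matrix.mulVec_mulVec, h2, Matrix.mulVec_zero]
    rwa [hNM, Matrix.one_mulVec] at this
  intro i
  rw [h3]
  rfl

end

end Fermat.Agent.Kummer
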