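import Mathlib
import Fermat.Agent.Kummer.Lemma

set_option autoImplicit false

namespace Fermat.Agent.Kummer

open Polynomial NumberField NumberField.Units

theorem fact_prime_5 : Fact (Nat.Prime 5) := ⟨by norm_num⟩
attribute [local instance] fact_prime_5

theorem kummer_5 {K : Type*} [Field K] [NumberField K] [IsCyclotomicExtension {5} ℚ K] {ζ : K}
    (hζ : IsPrimitiveRoot ζ 5) (u : (𝓞 K)ˣ) (n : ℤ) (hu : ((5 : ℕ) : 𝓞 K) ∣ (u : 𝓞 K) - n) :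
    ∃ v : (𝓞 K)ˣ, u = v ^ 5 := by
  refine kummer_of_matrix (p := 5) hζ (by norm_num) (r := 1) (by norm_num)
    !![1, 3; 0, 4; 0, 3]
    !![1, 3, 0; 0, 4, 0]
    ?_ ?_ ?_ u n hu
  · decide +kernel
  · decide +kernel
  · decide +kernel

theorem fact_prime_7 : Fact (Nat.Prime 7) := ⟨by norm_num⟩
attribute [local instance] fact_prime_7

theorem kummer_7 {K : Type*} [Field K] [NumberField K] [IsCyclotomicExtension {7} ℚ K] {ζ : K}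
    (hζ : IsPrimitiveRoot ζ 7) (u : (𝓞 K)ˣ) (n : ℤ) (hu : ((7 : ℕ) : 𝓞 K) ∣ (u : 𝓞 K) - n) :
    ∃ v : (𝓞 K)ˣ, u = v ^ 7 := by
  refine kummer_of_matrix (p := 7) hζ (by norm_num) (r := 2) (by norm_num)
    !![1, 4, 1; 0, 2, 1; 0, 6, 3; 0, 4, 0; 0, 5, 2]
    !![1, 6, 0, 3, 0; 0, 0, 0, 2, 0; 0, 1, 0, 3, 0]
    ?_ ?_ ?_ u n hu
  · decide +kernel
  · decide +kernel
  · decide +kernel

theorem fact_prime_11 : Fact (Nat.Prime 11) := ⟨by norm_num⟩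
attribute [local instance] fact_prime_11

theorem kummer_11 {K : Type*} [Field K] [NumberField K] [IsCyclotomicExtension {11} ℚ K] {ζ : K}
    (hζ : IsPrimitiveRoot ζ 11) (u : (𝓞 K)ˣ) (n : ℤ) (hu : ((11 : ℕ) : 𝓞 K) ∣ (u : 𝓞 K) - n) :
    ∃ v : (𝓞 K)ˣ, u = v ^ 11 := by
  refine kummer_of_matrix (p := 11) hζ (by norm_num) (r := 4) (by norm_num)
    !![1, 6, 1, 7, 2; 0, 3, 1, 5, 4; 0, 4, 5, 3, 9; 0, 9, 0, 8, 7; 0, 1, 3, 3, 7; 0, 5, 8, 4, 0; 0, 3, 7, 2, 10; 0, 4, 0, 6, 1; 0, 9, 2, 8, 3]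
    !![1, 9, 0, 6, 0, 7, 0, 8, 0; 0, 5, 0, 7, 0, 9, 0, 8, 0; 0, 10, 0, 9, 0, 3, 0, 7, 0; 0, 4, 0, 9, 0, 5, 0, 9, 0; 0, 0, 0, 6, 0, 0, 0, 3, 0]
    ?_ ?_ ?_ u n hu
  · decide +kernel
  · decide +kernel
  · decide +kernel

theorem fact_prime_13 : Fact (Nat.Prime 13) := ⟨by norm_num⟩
attribute [local instance] fact_prime_13

theorem kummer_13 {K : Type*} [Field K] [NumberField K] [IsCyclotomicExtension {13} ℚ K] {ζ : K}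
    (hζ : IsPrimitiveRoot ζ 13) (u : (𝓞 K)ˣ) (n : ℤ) (hu : ((13 : ℕ) : 𝓞 K) ∣ (u : 𝓞 K) - n) :
    ∃ v : (𝓞 K)ˣ, u = v ^ 13 := by
  refine kummer_of_matrix (p := 13) hζ (by norm_num) (r := 5) (by norm_num)
    !![1, 7, 1, 8, 2, 9; 0, 10, 1, 12, 4, 3; 0, 8, 6, 7, 11, 5; 0, 9, 0, 8, 9, 11; 0, 2, 10, 4, 7, 7; 0, 12, 3, 11, 0, 10; 0, 7, 5, 6, 1, 1; 0, 3, 0, 5, 12, 6; 0, 5, 4, 4, 2, 11; 0, 4, 9, 3, 10, 0; 0, 11, 2, 0, 8, 5]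
    !![1, 8, 0, 1, 0, 6, 0, 0, 0, 10, 0; 0, 3, 0, 10, 0, 10, 0, 9, 0, 5, 0; 0, 9, 0, 4, 0, 9, 0, 10, 0, 12, 0; 0, 9, 0, 5, 0, 4, 0, 10, 0, 2, 0; 0, 1, 0, 0, 0, 1, 0, 0, 0, 1, 0; 0, 2, 0, 6, 0, 7, 0, 9, 0, 9, 0]
    ?_ ?_ ?_ u n hu
  · decide +kernel
  · decide +kernel
  · decide +kernel

end Fermat.Agent.Kummer
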