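import Mathlib
import Fermat.Agent.Kummer.Hyp

set_option autoImplicit false

namespace Fermat.Agent.Kummer

open Polynomial NumberField Ideal

section prin

variable {p : ℕ} [hp : Fact p.Prime] {K : Type*} [Field K] [NumberField K]
  [IsCyclotomicExtension {p} ℚ K] {ζ : K}

omit [IsCyclotomicExtension {p} ℚ K] in
theorem minpoly_toInteger' (hζ : IsPrimitiveRoot ζ p) :
    minpoly ℤ hζ.toInteger = cyclotomic p ℤ := by
  rw [cyclotomic_eq_minpoly hζ hp.out.pos]
  exact (minpoly.algebraMap_eq RingOfIntegers.coe_injective hζ.toInteger).symm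

theorem exists_poly (hζ : IsPrimitiveRoot ζ p) (x : 𝓞 K) : ∃ h : ℤ[X], x = aeval hζ.toInteger h := by
  refine induction_zeta hζ (fun x => ∃ h : ℤ[X], x = aeval hζ.toInteger h) ⟨X, by simp⟩
    (fun n => ⟨C n, by simp⟩) ?_ ?_ x
  · rintro x y ⟨f, hf⟩ ⟨g, hg⟩
    exact ⟨f + g, by rw [hf, hg, map_add]⟩
  · rintro x y ⟨f, hf⟩ ⟨g, hg⟩
    exact ⟨f * g, by rw [hf, hg, map_mul]⟩

theorem exists_principal_prime (hζ : IsPrimitiveRoot ζ p) {q : ℕ} [hq : Fact q.Prime] (c f : ℤ[X])
    (hc : Irreducible (c.map (Int.castRingHom (ZMod q))))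
    (hcΦ : c.map (Int.castRingHom (ZMod q)) ∣ cyclotomic p (ZMod q))
    (hcf : c.map (Int.castRingHom (ZMod q)) ∣ f.map (Int.castRingHom (ZMod q)))
    (h1 : aeval hζ.toInteger f ∣ (q : 𝓞 K))
    (h2 : aeval hζ.toInteger f ∣ aeval hζ.toInteger c) :
    ∃ P ∈ primesOver (span {(q : ℤ)}) (𝓞 K), Submodule.IsPrincipal P := by
  have : Fact (Irreducible (c.map (Int.castRingHom (ZMod q)))) := ⟨hc⟩
  let F := AdjoinRoot (c.map (Int.castRingHom (ZMod q)))
  have haeval : ∀ g : ℤ[X], aeval (AdjoinRoot.root (c.map (Int.castRingHom (ZMod q)))) g =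
      AdjoinRoot.mk (c.map (Int.castRingHom (ZMod q))) (g.map (Int.castRingHom (ZMod q))) := by
    intro g
    rw [← AdjoinRoot.aeval_eq, aeval_def, aeval_def, eval₂_map]
    have hh : algebraMap ℤ (AdjoinRoot (c.map (Int.castRingHom (ZMod q)))) =
        (algebraMap (ZMod q) (AdjoinRoot (c.map (Int.castRingHom (ZMod q))))).comp
          (Int.castRingHom (ZMod q)) :=
      RingHom.ext_int _ _
    rw [hh]
  have hroot : aeval (AdjoinRoot.root (c.map (Int.castRingHom (ZMod q))))
      (minpoly ℤ hζ.integralPowerBasis.gen) = 0 := by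
    rw [IsPrimitiveRoot.integralPowerBasis_gen, minpoly_toInteger' hζ, haeval, map_cyclotomic_int,
      AdjoinRoot.mk_eq_zero]
    exact hcΦ
  let φ : 𝓞 K →ₐ[ℤ] F := hζ.integralPowerBasis.lift _ hroot
  have hφζ : φ hζ.toInteger = AdjoinRoot.root (c.map (Int.castRingHom (ZMod q))) := by
    have := hζ.integralPowerBasis.lift_gen _ hroot
    simp only [IsPrimitiveRoot.integralPowerBasis_gen] at this
    exact this
  have hφ : ∀ g : ℤ[X], φ (aeval hζ.toInteger g) = 
      AdjoinRoot.mk (c.map (Int.castRingHom (ZMod q))) (g.map (Int.castRingHom (ZMod q))) := by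
    intro g
    rw [← haeval, ← hφζ, Polynomial.aeval_algHom_apply]
  have hφq : φ (q : 𝓞 K) = 0 := by
    have := hφ (C (q : ℤ))
    simpa using this
  -- the kernel
  have hker : ∀ x : 𝓞 K, φ x = 0 ↔ aeval hζ.toInteger f ∣ x := by
    intro x
    constructor
    · intro hx
      obtain ⟨h, rfl⟩ := exists_poly hζ x
      rw [hφ, AdjoinRoot.mk_eq_zero] at hx
      obtain ⟨k, hk⟩ := hx
      obtain ⟨k', rfl⟩ := Polynomial.map_surjective (Int.castRingHom (ZMod q))
        (ZMod.ringHom_surjective _) k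
      have h0 : (h - c * k').map (Int.castRingHom (ZMod q)) = 0 := by
        rw [Polynomial.map_sub, Polynomial.map_mul, hk, sub_self]
      have h3 : C (q : ℤ) ∣ h - c * k' := by
        rw [C_dvd_iff_dvd_coeff]
        intro i
        have := congrArg (fun g => coeff g i) h0
        simp only [coeff_map, coeff_zero, eq_intCast] at this
        rwa [ZMod.intCast_zmod_eq_zero_iff_dvd] at this
      obtain ⟨l, hl⟩ := h3
      have : h = c * k' + C (q : ℤ) * l := by rw [← hl]; ring
      rw [this, map_add, map_mul, map_mul]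
      refine dvd_add (h2.mul_right _) (Dvd.dvd.mul_right ?_ _)
      simpa using h1
    · rintro ⟨y, rfl⟩
      rw [map_mul, hφ, (AdjoinRoot.mk_eq_zero).2 hcf, zero_mul]
  refine ⟨span {aeval hζ.toInteger f}, ⟨?_, ?_⟩, ⟨⟨_, rfl⟩⟩⟩
  · have : span {aeval hζ.toInteger f} = RingHom.ker φ := by
      ext x
      rw [mem_span_singleton, RingHom.mem_ker, hker]
    rw [this]
    exact RingHom.ker_isPrime _
  · constructor
    have hmax : (span {(q : ℤ)}).IsMaximal := Int.ideal_span_isMaximal_of_prime q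
    refine hmax.eq_of_le ?_ ?_
    · rw [Ideal.ne_top_iff_one, Ideal.mem_comap, mem_span_singleton, ← hker]
      simp
    · rw [span_singleton_le_iff_mem, mem_comap, mem_span_singleton, ← hker]
      simpa using hφq

end prin

section crit

variable {p : ℕ} [hp : Fact p.Prime] (K : Type*) [Field K] [NumberField K]
  [IsCyclotomicExtension {p} ℚ K]

theorem pid_criterion (hp2 : p ≠ 2) (B : ℕ)
    (hB : (4 / Real.pi) ^ ((p - 1) / 2) * (((p - 1).factorial : ℝ) / ((p - 1 : ℕ) : ℝ) ^ (p - 1) *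
      √((p : ℝ) ^ (p - 2))) < B + 1)
    (h : ∀ q : ℕ, q ≤ B → q.Prime → q ≠ p → (∀ k : ℕ, 0 < k → q ^ k ≤ B → q ^ k % p ≠ 1) ∨
      ∃ P ∈ primesOver (span {(q : ℤ)}) (𝓞 K), Submodule.IsPrincipal P) :
    IsPrincipalIdealRing (𝓞 K) := by
  have hζ := IsCyclotomicExtension.zeta_spec p ℚ K
  have hgal : IsGalois ℚ K := IsCyclotomicExtension.isGalois {p} ℚ K
  have hfr : Module.finrank ℚ K = p - 1 := by
    rw [IsCyclotomicExtension.finrank (n := p) K (cyclotomic.irreducible_rat hp.out.pos),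
      Nat.totient_prime hp.out]
  have hcp : InfinitePlace.nrComplexPlaces K = (p - 1) / 2 := by
    rw [IsCyclotomicExtension.Rat.nrComplexPlaces_eq_totient_div_two p, Nat.totient_prime hp.out]
  have hdisc : |(discr K : ℝ)| = (p : ℝ) ^ (p - 2) := by
    rw [IsCyclotomicExtension.Rat.discr_prime p K]
    push_cast
    rw [abs_mul, abs_pow, abs_neg, abs_one, one_pow, one_mul, abs_pow, Nat.abs_cast]
  set M := (4 / Real.pi) ^ InfinitePlace.nrComplexPlaces K *
    (((Module.finrank ℚ K).factorial : ℝ) / ((Module.finrank ℚ K) : ℝ) ^ (Module.finrank ℚ K) *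
      √|(discr K : ℝ)|) with hM
  have hMB : ⌊M⌋₊ ≤ B := by
    rw [← Nat.lt_succ_iff, Nat.floor_lt']
    · rw [hM, hcp, hfr, hdisc]
      push_cast at hB ⊢
      exact hB
    · exact Nat.succ_ne_zero _
  refine RingOfIntegers.isPrincipalIdealRing_of_isPrincipal_of_lt_or_isPrincipal_of_mem_primesOver_of_mem_Icc
    (K := K) ?_
  intro q hq hqp
  have hqB : q ≤ B := (Finset.mem_Icc.1 hq).2.trans hMB
  have : Fact q.Prime := ⟨hqp⟩
  by_cases hqeq : q = p
  · subst hqeq
    refine ⟨span {hζ.toInteger - 1}, ⟨?_, ?_⟩, Or.inr ⟨⟨_, rfl⟩⟩⟩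
    · exact IsCyclotomicExtension.Rat.isPrime_span_zeta_sub_one' q hζ
    · have hprime : (span {hζ.toInteger - 1}).IsPrime :=
        IsCyclotomicExtension.Rat.isPrime_span_zeta_sub_one' q hζ
      constructor
      have hmax : (span {(q : ℤ)}).IsMaximal := Int.ideal_span_isMaximal_of_prime q
      refine hmax.eq_of_le (hprime.comap _).ne_top ?_
      rw [span_singleton_le_iff_mem, mem_comap, mem_span_singleton]
      have := (IsCyclotomicExtension.Rat.zeta_sub_one_dvd_intCast_iff' q hζ (n := (q : ℤ))).2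
        dvd_rfl
      simpa using this
  · rcases h q hqB hqp hqeq with h1 | ⟨P, hP, hP'⟩
    · obtain ⟨⟨P, hP1, hP2⟩⟩ := (span {(q : ℤ)}).nonempty_primesOver (S := 𝓞 K)
      refine ⟨P, ⟨hP1, hP2⟩, Or.inl ?_⟩
      have hdvd : ¬ q ∣ p := by
        intro hd
        exact hqeq ((Nat.prime_dvd_prime_iff_eq hqp hp.out).1 hd)
      have hne : NeZero p := ⟨hp.out.ne_zero⟩
      rw [IsCyclotomicExtension.Rat.inertiaDeg_eq_of_not_dvd q K P (m := p) hdvd]
      refine lt_of_le_of_lt hMB ?_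
      by_contra hcon
      push Not at hcon
      have hpos : 0 < orderOf (q : ZMod p) := by
        rw [orderOf_pos_iff]
        have hu : IsUnit (q : ZMod p) := by
          rw [isUnit_iff_ne_zero, Ne, ZMod.natCast_eq_zero_iff]
          intro hd
          exact hqeq ((Nat.prime_dvd_prime_iff_eq hp.out hqp).1 hd).symm
        exact hu.isOfFinOrder
      apply h1 _ hpos hcon
      have h2 : (q : ZMod p) ^ orderOf (q : ZMod p) = 1 := pow_orderOf_eq_one _
      have h3 : ((q ^ orderOf (q : ZMod p) : ℕ) : ZMod p) = ((1 : ℕ) : ZMod p) := by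
        push_cast
        exact h2
      rw [ZMod.natCast_eq_natCast_iff] at h3
      rw [Nat.ModEq] at h3
      rw [h3, Nat.mod_eq_of_lt hp.out.one_lt]
    · exact ⟨P, hP, Or.inr hP'⟩

end crit

end Fermat.Agent.Kummer
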