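import Mathlib
import Fermat.Agent.Kummer.PIDGen

set_option autoImplicit false
set_option linter.unusedSimpArgs false

namespace Fermat.Agent.Kummer

open Polynomial NumberField Ideal

theorem fact_pr_7 : Fact (Nat.Prime 7) := ⟨by norm_num⟩
theorem fact_pr_11 : Fact (Nat.Prime 11) := ⟨by norm_num⟩
theorem fact_pr_13 : Fact (Nat.Prime 13) := ⟨by norm_num⟩
theorem fact_pr_3 : Fact (Nat.Prime 3) := ⟨by norm_num⟩
theorem fact_pr_23 : Fact (Nat.Prime 23) := ⟨by norm_num⟩
theorem fact_pr_53 : Fact (Nat.Prime 53) := ⟨by norm_num⟩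
theorem fact_pr_79 : Fact (Nat.Prime 79) := ⟨by norm_num⟩
theorem fact_pr_131 : Fact (Nat.Prime 131) := ⟨by norm_num⟩
theorem fact_pr_157 : Fact (Nat.Prime 157) := ⟨by norm_num⟩
attribute [local instance] fact_pr_7 fact_pr_11 fact_pr_13 fact_pr_3 fact_pr_23 fact_pr_53
  fact_pr_79 fact_pr_131 fact_pr_157

/-- Degree one version of `exists_principal_prime`. -/
theorem exists_principal_prime_one {p : ℕ} [hp : Fact p.Prime] {K : Type*} [Field K] [NumberField K]
    [IsCyclotomicExtension {p} ℚ K] {ζ : K} (hζ : IsPrimitiveRoot ζ p) {q : ℕ} [hq : Fact q.Prime]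
    (g : ℤ) (f : ℤ[X])
    (hg : ∑ i ∈ Finset.range p, (g : ZMod q) ^ i = 0)
    (hf : eval (g : ZMod q) (f.map (Int.castRingHom (ZMod q))) = 0)
    (h1 : aeval hζ.toInteger f ∣ (q : 𝓞 K))
    (h2 : aeval hζ.toInteger f ∣ hζ.toInteger - g) :
    ∃ P ∈ primesOver (span {(q : ℤ)}) (𝓞 K), Submodule.IsPrincipal P := by
  have hm : (X - C g : ℤ[X]).map (Int.castRingHom (ZMod q)) = X - C (g : ZMod q) := by
    simp
  refine exists_principal_prime hζ (X - C g) f ?_ ?_ ?_ h1 (by simpa using h2)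
  · rw [hm]
    exact irreducible_X_sub_C _
  · rw [hm, dvd_iff_isRoot, IsRoot, cyclotomic_prime]
    simpa [eval_finsetSum] using hg
  · rw [hm, dvd_iff_isRoot, IsRoot]
    exact hf

theorem sum_zeta {p : ℕ} [hp : Fact p.Prime] {K : Type*} [Field K] [NumberField K]
    {ζ : K} (hζ : IsPrimitiveRoot ζ p) : ∑ i ∈ Finset.range p, hζ.toInteger ^ i = 0 := by
  exact hζ.toInteger_isPrimitiveRoot.geom_sum_eq_zero hp.out.one_lt

theorem prin_11_23 {K : Type*} [Field K] [NumberField K] [IsCyclotomicExtension {11} ℚ K] :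
    ∃ P ∈ primesOver (span {((23 : ℕ) : ℤ)}) (𝓞 K), Submodule.IsPrincipal P := by
  have hζ := IsCyclotomicExtension.zeta_spec 11 ℚ K
  have hs := sum_zeta hζ
  simp only [Finset.sum_range_succ, Finset.sum_range_zero, zero_add, pow_zero, pow_one] at hs
  refine exists_principal_prime_one hζ (q := 23) 4 (1 + X + X ^ 3) ?_ ?_ ?_ ?_
  · decide +kernel
  · simp only [Polynomial.map_add, Polynomial.map_sub, Polynomial.map_pow, Polynomial.map_one,
      Polynomial.map_X, eval_add, eval_sub, eval_pow, eval_one, eval_X]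
    decide +kernel
  · simp only [map_add, map_sub, map_pow, map_one, aeval_X]
    generalize hζ.toInteger = z at hs ⊢
    refine ⟨-2 - 14 * z - 17 * z ^ 2 - 12 * z ^ 3 - 5 * z ^ 4 - 9 * z ^ 5 - 10 * z ^ 6 - 16 * z ^ 7 - 6 * z ^ 8 - 15 * z ^ 9, ?_⟩
    push_cast
    linear_combination (-(-25 + 9 * z - 15 * z ^ 2)) * hs
  · simp only [map_add, map_sub, map_pow, map_one, aeval_X]
    generalize hζ.toInteger = z at hs ⊢
    refine ⟨1 + 3 * z + 3 * z ^ 2 + 2 * z ^ 3 + z ^ 4 + 2 * z ^ 5 + 2 * z ^ 6 + 3 * z ^ 7 + z ^ 8 + 3 * z ^ 9, ?_⟩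
    push_cast
    linear_combination (-(5 - 2 * z + 3 * z ^ 2)) * hs

theorem prin_13_53 {K : Type*} [Field K] [NumberField K] [IsCyclotomicExtension {13} ℚ K] :
    ∃ P ∈ primesOver (span {((53 : ℕ) : ℤ)}) (𝓞 K), Submodule.IsPrincipal P := by
  have hζ := IsCyclotomicExtension.zeta_spec 13 ℚ K
  have hs := sum_zeta hζ
  simp only [Finset.sum_range_succ, Finset.sum_range_zero, zero_add, pow_zero, pow_one] at hs
  refine exists_principal_prime_one hζ (q := 53) 36 (1 + X + X ^ 3) ?_ ?_ ?_ ?_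
  · decide +kernel
  · simp only [Polynomial.map_add, Polynomial.map_sub, Polynomial.map_pow, Polynomial.map_one,
      Polynomial.map_X, eval_add, eval_sub, eval_pow, eval_one, eval_X]
    decide +kernel
  · simp only [map_add, map_sub, map_pow, map_one, aeval_X]
    generalize hζ.toInteger = z at hs ⊢
    refine ⟨1 - 24 * z - 35 * z ^ 2 - 25 * z ^ 3 - 10 * z ^ 4 - 14 * z ^ 5 - 20 * z ^ 6 - 29 * z ^ 7 - 16 * z ^ 8 - 23 * z ^ 9 - 7 * z ^ 10 - 36 * z ^ 11, ?_⟩
    push_cast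
    linear_combination (-(-52 + 29 * z - 36 * z ^ 2)) * hs
  · simp only [map_add, map_sub, map_pow, map_one, aeval_X]
    generalize hζ.toInteger = z at hs ⊢
    refine ⟨17 * z + 24 * z ^ 2 + 17 * z ^ 3 + 7 * z ^ 4 + 10 * z ^ 5 + 14 * z ^ 6 + 20 * z ^ 7 + 11 * z ^ 8 + 16 * z ^ 9 + 5 * z ^ 10 + 25 * z ^ 11, ?_⟩
    push_cast
    linear_combination (-(36 - 20 * z + 25 * z ^ 2)) * hs

theorem prin_13_131 {K : Type*} [Field K] [NumberField K] [IsCyclotomicExtension {13} ℚ K] :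
    ∃ P ∈ primesOver (span {((131 : ℕ) : ℤ)}) (𝓞 K), Submodule.IsPrincipal P := by
  have hζ := IsCyclotomicExtension.zeta_spec 13 ℚ K
  have hs := sum_zeta hζ
  simp only [Finset.sum_range_succ, Finset.sum_range_zero, zero_add, pow_zero, pow_one] at hs
  refine exists_principal_prime_one hζ (q := 131) 80 (1 - X - X ^ 3) ?_ ?_ ?_ ?_
  · decide +kernel
  · simp only [Polynomial.map_add, Polynomial.map_sub, Polynomial.map_pow, Polynomial.map_one,
      Polynomial.map_X, eval_add, eval_sub, eval_pow, eval_one, eval_X]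
    decide +kernel
  · simp only [map_add, map_sub, map_pow, map_one, aeval_X]
    generalize hζ.toInteger = z at hs ⊢
    refine ⟨111 + 78 * z + 17 * z ^ 2 + 67 * z ^ 3 + 84 * z ^ 4 + 40 * z ^ 5 + 46 * z ^ 6 + 69 * z ^ 7 + 48 * z ^ 8 + 33 * z ^ 9 + 41 * z ^ 10 + 28 * z ^ 11, ?_⟩
    push_cast
    linear_combination (-(-20 - 13 * z - 28 * z ^ 2)) * hs
  · simp only [map_add, map_sub, map_pow, map_one, aeval_X]
    generalize hζ.toInteger = z at hs ⊢
    refine ⟨-68 - 47 * z - 10 * z ^ 2 - 41 * z ^ 3 - 51 * z ^ 4 - 24 * z ^ 5 - 28 * z ^ 6 - 42 * z ^ 7 - 29 * z ^ 8 - 20 * z ^ 9 - 25 * z ^ 10 - 17 * z ^ 11, ?_⟩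
    push_cast
    linear_combination (-(12 + 8 * z + 17 * z ^ 2)) * hs

theorem prin_13_79 {K : Type*} [Field K] [NumberField K] [IsCyclotomicExtension {13} ℚ K] :
    ∃ P ∈ primesOver (span {((79 : ℕ) : ℤ)}) (𝓞 K), Submodule.IsPrincipal P := by
  have hζ := IsCyclotomicExtension.zeta_spec 13 ℚ K
  have hs := sum_zeta hζ
  simp only [Finset.sum_range_succ, Finset.sum_range_zero, zero_add, pow_zero, pow_one] at hs
  refine exists_principal_prime_one hζ (q := 79) 64 (1 + X - X ^ 4) ?_ ?_ ?_ ?_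
  · decide +kernel
  · simp only [Polynomial.map_add, Polynomial.map_sub, Polynomial.map_pow, Polynomial.map_one,
      Polynomial.map_X, eval_add, eval_sub, eval_pow, eval_one, eval_X]
    decide +kernel
  · simp only [map_add, map_sub, map_pow, map_one, aeval_X]
    generalize hζ.toInteger = z at hs ⊢
    refine ⟨24 - 25 * z - 27 * z ^ 2 + 10 * z ^ 3 - 3 * z ^ 4 - 39 * z ^ 5 - 5 * z ^ 6 - 2 * z ^ 7 - 18 * z ^ 8 - 38 * z ^ 9 + 16 * z ^ 10 - 35 * z ^ 11, ?_⟩
    push_cast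
    linear_combination (-(-55 + 54 * z - 51 * z ^ 2 + 35 * z ^ 3)) * hs
  · simp only [map_add, map_sub, map_pow, map_one, aeval_X]
    generalize hζ.toInteger = z at hs ⊢
    refine ⟨-19 + 21 * z + 22 * z ^ 2 - 8 * z ^ 3 + 3 * z ^ 4 + 32 * z ^ 5 + 4 * z ^ 6 + 2 * z ^ 7 + 15 * z ^ 8 + 31 * z ^ 9 - 13 * z ^ 10 + 29 * z ^ 11, ?_⟩
    push_cast
    linear_combination (-(45 - 44 * z + 42 * z ^ 2 - 29 * z ^ 3)) * hs

theorem prin_13_157 {K : Type*} [Field K] [NumberField K] [IsCyclotomicExtension {13} ℚ K] :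
    ∃ P ∈ primesOver (span {((157 : ℕ) : ℤ)}) (𝓞 K), Submodule.IsPrincipal P := by
  have hζ := IsCyclotomicExtension.zeta_spec 13 ℚ K
  have hs := sum_zeta hζ
  simp only [Finset.sum_range_succ, Finset.sum_range_zero, zero_add, pow_zero, pow_one] at hs
  refine exists_principal_prime_one hζ (q := 157) 75 (1 - X + X ^ 2 + X ^ 4) ?_ ?_ ?_ ?_
  · decide +kernel
  · simp only [Polynomial.map_add, Polynomial.map_sub, Polynomial.map_pow, Polynomial.map_one,
      Polynomial.map_X, eval_add, eval_sub, eval_pow, eval_one, eval_X]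
    decide +kernel
  · simp only [map_add, map_sub, map_pow, map_one, aeval_X]
    generalize hζ.toInteger = z at hs ⊢
    refine ⟨89 + 86 * z + 42 * z ^ 2 + 77 * z ^ 3 + 67 * z ^ 4 + 25 * z ^ 5 + 37 * z ^ 6 + 56 * z ^ 7 + 73 * z ^ 8 + 113 * z ^ 9 + 124 * z ^ 10 + 76 * z ^ 11, ?_⟩
    push_cast
    linear_combination (-(-68 + 65 * z + 48 * z ^ 2 + 76 * z ^ 3)) * hs
  · simp only [map_add, map_sub, map_pow, map_one, aeval_X]
    generalize hζ.toInteger = z at hs ⊢
    refine ⟨-43 - 41 * z - 20 * z ^ 2 - 37 * z ^ 3 - 32 * z ^ 4 - 12 * z ^ 5 - 18 * z ^ 6 - 27 * z ^ 7 - 35 * z ^ 8 - 54 * z ^ 9 - 59 * z ^ 10 - 36 * z ^ 11, ?_⟩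
    push_cast
    linear_combination (-(32 - 31 * z - 23 * z ^ 2 - 36 * z ^ 3)) * hs

theorem irred_3 : Irreducible ((X ^ 3 - X - 1 : ℤ[X]).map (Int.castRingHom (ZMod 3))) := by
  have hm : (X ^ 3 - X - 1 : ℤ[X]).map (Int.castRingHom (ZMod 3)) = X ^ 3 - X - 1 := by
    simp
  rw [hm]
  have hd : (X ^ 3 - X - 1 : (ZMod 3)[X]).natDegree = 3 := by compute_degree!
  rw [irreducible_iff_roots_eq_zero_of_degree_le_three (by rw [hd]; norm_num) (by rw [hd])]
  have hne : (X ^ 3 - X - 1 : (ZMod 3)[X]) ≠ 0 := by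
    intro h
    rw [h, natDegree_zero] at hd
    norm_num at hd
  rw [Multiset.eq_zero_iff_forall_notMem]
  intro a
  rw [mem_roots hne, IsRoot]
  simp only [eval_sub, eval_pow, eval_X, eval_one]
  revert a
  decide

theorem dvd_cyc_13 : (X ^ 3 - X - 1 : ℤ[X]).map (Int.castRingHom (ZMod 3)) ∣
    cyclotomic 13 (ZMod 3) := by
  refine ⟨(20 + 15 * X + 11 * X ^ 2 + 8 * X ^ 3 + 6 * X ^ 4 + 4 * X ^ 5 + 3 * X ^ 6 + 2 * X ^ 7 + X ^ 8 + X ^ 9 : ℤ[X]).map (Int.castRingHom (ZMod 3)), ?_⟩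
  rw [← Polynomial.map_mul]
  have h : cyclotomic 13 ℤ = (X ^ 3 - X - 1) * (20 + 15 * X + 11 * X ^ 2 + 8 * X ^ 3 + 6 * X ^ 4 + 4 * X ^ 5 + 3 * X ^ 6 + 2 * X ^ 7 + X ^ 8 + X ^ 9) + C 3 * (7 + 12 * X + 9 * X ^ 2) := by
    rw [cyclotomic_prime]
    simp only [Finset.sum_range_succ, Finset.sum_range_zero, zero_add, pow_zero, pow_one]
    simp only [map_ofNat]
    ring
  have h2 := congrArg (Polynomial.map (Int.castRingHom (ZMod 3))) h
  rw [map_cyclotomic_int, Polynomial.map_add, Polynomial.map_mul (p := C 3)] at h2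
  rw [h2]
  have h3 : (C 3 : ℤ[X]).map (Int.castRingHom (ZMod 3)) = 0 := by
    rw [map_C]
    have : (Int.castRingHom (ZMod 3)) 3 = 0 := by decide
    rw [this, map_zero]
  rw [h3, zero_mul, add_zero]

theorem prin_13_3 {K : Type*} [Field K] [NumberField K] [IsCyclotomicExtension {13} ℚ K] :
    ∃ P ∈ primesOver (span {((3 : ℕ) : ℤ)}) (𝓞 K), Submodule.IsPrincipal P := by
  have hζ := IsCyclotomicExtension.zeta_spec 13 ℚ K
  have hs := sum_zeta hζ
  simp only [Finset.sum_range_succ, Finset.sum_range_zero, zero_add, pow_zero, pow_one] at hs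
  refine exists_principal_prime hζ (q := 3) (X ^ 3 - X - 1) (X ^ 3 - X - 1) irred_3 dvd_cyc_13
    dvd_rfl ?_ dvd_rfl
  simp only [map_add, map_sub, map_pow, map_one, aeval_X]
  generalize hζ.toInteger = z at hs ⊢
  refine ⟨-(-1 - z ^ 2 - z ^ 3 - 2 * z ^ 5 - z ^ 7 - 2 * z ^ 8 + z ^ 9 - 3 * z ^ 10), ?_⟩
  push_cast
  linear_combination (-(-4 + 3 * z)) * hs

theorem bound_sqrt {a b : ℝ} (hb : 0 < b) (h : a < b ^ 2) : √a < b := (Real.sqrt_lt' hb).2 h

theorem four_div_pi_lt : 4 / Real.pi < 1.274 := by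
  rw [div_lt_iff₀ Real.pi_pos]
  have := Real.pi_gt_d2
  nlinarith

theorem pid_7 (K : Type*) [Field K] [NumberField K] [IsCyclotomicExtension {7} ℚ K] :
    IsPrincipalIdealRing (𝓞 K) := by
  refine pid_criterion (p := 7) K (by norm_num) 7 ?_ ?_
  · have h1 := four_div_pi_lt
    have h0 : 0 < 4 / Real.pi := by positivity
    have h2 : √((7 : ℝ) ^ 5) < 130 := bound_sqrt (by norm_num) (by norm_num)
    norm_num [Nat.factorial]
    calc (4 / Real.pi) ^ 3 * (5 / 324 * √16807) ≤ 1.274 ^ 3 * (5 / 324 * 130) := by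
          norm_num at h2
          gcongr
      _ < 8 := by norm_num
  · intro q hq hqp hne
    left
    intro k hk hkB hmod
    have hk8 : k < 4 := by
      by_contra hc
      push Not at hc
      have : 2 ^ 4 ≤ q ^ k := (Nat.pow_le_pow_left hqp.two_le 4).trans
        (Nat.pow_le_pow_right hqp.pos hc)
      omega
    have key : ∀ q < 8, ∀ k < 4, (0 < k ∧ q ≠ 1 ∧ q ^ k ≤ 7) → q ^ k % 7 ≠ 1 := by decide
    exact key q (by omega) k hk8 ⟨hk, hqp.ne_one, hkB⟩ hmod

theorem pid_11 (K : Type*) [Field K] [NumberField K] [IsCyclotomicExtension {11} ℚ K] :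
    IsPrincipalIdealRing (𝓞 K) := by
  refine pid_criterion (p := 11) K (by norm_num) 65 ?_ ?_
  · have h1 := four_div_pi_lt
    have h0 : 0 < 4 / Real.pi := by positivity
    have h2 : √((11 : ℝ) ^ 9) < 48559 := bound_sqrt (by norm_num) (by norm_num)
    norm_num [Nat.factorial]
    norm_num at h2
    calc (4 / Real.pi) ^ 5 * (567 / 1562500 * √2357947691)
        ≤ 1.274 ^ 5 * (567 / 1562500 * 48559) := by gcongr
      _ < 66 := by norm_num
  · intro q hq hqp hne
    by_cases h23 : q = 23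
    · right
      subst h23
      exact prin_11_23
    left
    intro k hk hkB hmod
    have hk8 : k < 7 := by
      by_contra hc
      push Not at hc
      have : 2 ^ 7 ≤ q ^ k := (Nat.pow_le_pow_left hqp.two_le 7).trans
        (Nat.pow_le_pow_right hqp.pos hc)
      omega
    have key : ∀ q < 66, ∀ k < 7, (0 < k ∧ q ≠ 23 ∧ q.Prime ∧ q ^ k ≤ 65) →
        q ^ k % 11 ≠ 1 := by decide +kernel
    exact key q (by omega) k hk8 ⟨hk, h23, hqp, hkB⟩ hmod

theorem pid_13 (K : Type*) [Field K] [NumberField K] [IsCyclotomicExtension {13} ℚ K] :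
    IsPrincipalIdealRing (𝓞 K) := by
  refine pid_criterion (p := 13) K (by norm_num) 311 ?_ ?_
  · have h1 := four_div_pi_lt
    have h0 : 0 < 4 / Real.pi := by positivity
    have h2 : √((13 : ℝ) ^ 11) < 1338717 := bound_sqrt (by norm_num) (by norm_num)
    norm_num [Nat.factorial]
    norm_num at h2
    calc (4 / Real.pi) ^ 6 * (1925 / 35831808 * √1792160394037)
        ≤ 1.274 ^ 6 * (1925 / 35831808 * 1338717) := by gcongr
      _ < 312 := by norm_num
  · intro q hq hqp hne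
    by_cases h3 : q = 3
    · right; subst h3; exact prin_13_3
    by_cases h53 : q = 53
    · right; subst h53; exact prin_13_53
    by_cases h79 : q = 79
    · right; subst h79; exact prin_13_79
    by_cases h131 : q = 131
    · right; subst h131; exact prin_13_131
    by_cases h157 : q = 157
    · right; subst h157; exact prin_13_157
    left
    intro k hk hkB hmod
    have hk8 : k < 9 := by
      by_contra hc
      push Not at hc
      have : 2 ^ 9 ≤ q ^ k := (Nat.pow_le_pow_left hqp.two_le 9).trans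
        (Nat.pow_le_pow_right hqp.pos hc)
      omega
    have key : ∀ q < 312, ∀ k < 9, (0 < k ∧ q ∉ ([3, 53, 79, 131, 157] : List ℕ) ∧
        q.Prime ∧ q ^ k ≤ 311) → q ^ k % 13 ≠ 1 := by decide +kernel
    exact key q (by omega) k hk8 ⟨hk, by simp [h3, h53, h79, h131, h157], hqp, hkB⟩ hmod

end Fermat.Agent.Kummer
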