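import Mathlib
import Fermat.Prelude.Def_FLTPrelim_FreyPackage
import Fermat.Agent.Kummer.CaseII
import Fermat.Agent.Kummer.CaseI
import Fermat.Agent.Kummer.Hyp
import Fermat.Agent.Kummer.Matrices
import Fermat.Agent.Kummer.PID

set_option autoImplicit false

namespace Fermat.Agent.Kummer

open NumberField

theorem cyc_inst (n : ℕ) [NeZero n] : IsCyclotomicExtension {n} ℚ (CyclotomicField n ℚ) := by
  have h := CyclotomicField.isCyclotomicExtension n ℚ
  have e : (DivisionRing.toRatAlgebra : Algebra ℚ (CyclotomicField n ℚ)) =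
    CyclotomicField.algebra n ℚ := Subsingleton.elim _ _
  rw [e]
  exact h

theorem flt_coprime {p : ℕ} (hp : p.Prime) (hodd : p ≠ 2) {R : Type*} [CommRing R] [IsDomain R]
    [IsPrincipalIdealRing R] [CharZero R] {ζ : R} (H : KummerHyp R p ζ)
    (hI : ∀ x y z : ℤ, x ^ p + y ^ p + z ^ p = 0 → IsCoprime x y → IsCoprime y z → IsCoprime z x →
      (p : ℤ) ∣ x ∨ (p : ℤ) ∣ y ∨ (p : ℤ) ∣ z) {x y z : ℤ} (hx : x ≠ 0) (hy : y ≠ 0) (hz : z ≠ 0)
    (hxy : IsCoprime x y) (hyz : IsCoprime y z) (hzx : IsCoprime z x)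
    (h : x ^ p + y ^ p + z ^ p = 0) : False := by
  have ho : Odd p := hp.odd_of_ne_two hodd
  rcases hI x y z h hxy hyz hzx with h1 | h1 | h1
  · refine caseII hp hodd H (a := y) (b := z) (c := -x) (neg_ne_zero.2 hx) hyz
      ((dvd_neg).2 h1) ?_
    rw [ho.neg_pow]
    linarith
  · refine caseII hp hodd H (a := z) (b := x) (c := -y) (neg_ne_zero.2 hy) hzx
      ((dvd_neg).2 h1) ?_
    rw [ho.neg_pow]
    linarith
  · refine caseII hp hodd H (a := x) (b := y) (c := -z) (neg_ne_zero.2 hz) hxy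
      ((dvd_neg).2 h1) ?_
    rw [ho.neg_pow]
    linarith

theorem frey_false_of (P : FreyPackage)
    (h : ∀ x y z : ℤ, x ≠ 0 → y ≠ 0 → z ≠ 0 → IsCoprime x y → IsCoprime y z → IsCoprime z x →
      x ^ P.p + y ^ P.p + z ^ P.p = 0 → False) : False := by
  have hab : IsCoprime P.a P.b := by
    rw [← gcd_isUnit_iff, P.hgcdab]
    exact isUnit_one
  have hac : IsCoprime P.a P.c := by
    rw [← gcd_isUnit_iff, P.hgcdac]
    exact isUnit_one
  have hbc : IsCoprime P.b P.c := by
    rw [← gcd_isUnit_iff, P.hgcdbc]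
    exact isUnit_one
  refine h P.a P.b (-P.c) P.ha0 P.hb0 (neg_ne_zero.2 P.hc0) hab hbc.neg_right hac.symm.neg_left ?_
  rw [P.hp_odd.neg_pow, P.hFLT]
  ring

theorem no_frey_5 (P : FreyPackage) (hp : P.p = 5) : False := by
  apply frey_false_of P
  rw [hp]
  intro x y z hx hy hz hxy hyz hzx h
  have := cyc_inst 5
  have := IsCyclotomicExtension.Rat.five_pid (CyclotomicField 5 ℚ)
  have := fact_prime_5
  have hζ := IsCyclotomicExtension.zeta_spec 5 ℚ (CyclotomicField 5 ℚ)
  exact flt_coprime (p := 5) (by norm_num) (by norm_num) (kummerHyp hζ (kummer_5 hζ))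
    (fun x y z h h1 h2 h3 => caseI_5 h h1 h2 h3) hx hy hz hxy hyz hzx h

theorem no_frey_7 (P : FreyPackage) (hp : P.p = 7) : False := by
  apply frey_false_of P
  rw [hp]
  intro x y z hx hy hz hxy hyz hzx h
  have := cyc_inst 7
  have := pid_7 (CyclotomicField 7 ℚ)
  have := fact_prime_7
  have hζ := IsCyclotomicExtension.zeta_spec 7 ℚ (CyclotomicField 7 ℚ)
  exact flt_coprime (p := 7) (by norm_num) (by norm_num) (kummerHyp hζ (kummer_7 hζ))
    (fun x y z h h1 h2 h3 => caseI_7 h h1 h2 h3) hx hy hz hxy hyz hzx h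

theorem no_frey_11 (P : FreyPackage) (hp : P.p = 11) : False := by
  apply frey_false_of P
  rw [hp]
  intro x y z hx hy hz hxy hyz hzx h
  have := cyc_inst 11
  have := pid_11 (CyclotomicField 11 ℚ)
  have := fact_prime_11
  have hζ := IsCyclotomicExtension.zeta_spec 11 ℚ (CyclotomicField 11 ℚ)
  exact flt_coprime (p := 11) (by norm_num) (by norm_num) (kummerHyp hζ (kummer_11 hζ))
    (fun x y z h h1 h2 h3 => caseI_11 h h1 h2 h3) hx hy hz hxy hyz hzx h

theorem no_frey_13 (P : FreyPackage) (hp : P.p = 13) : False := by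
  apply frey_false_of P
  rw [hp]
  intro x y z hx hy hz hxy hyz hzx h
  have := cyc_inst 13
  have := pid_13 (CyclotomicField 13 ℚ)
  have := fact_prime_13
  have hζ := IsCyclotomicExtension.zeta_spec 13 ℚ (CyclotomicField 13 ℚ)
  exact flt_coprime (p := 13) (by norm_num) (by norm_num) (kummerHyp hζ (kummer_13 hζ))
    (fun x y z h h1 h2 h3 => caseI_13 h h1 h2 h3) hx hy hz hxy hyz hzx h

end Fermat.Agent.Kummer
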